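import Fermat.Agent.MF.ParHom.Universal
import Mathlib.LinearAlgebra.Dimension.RankNullity
import Mathlib.LinearAlgebra.FreeModule.StrongRankCondition
import Mathlib.LinearAlgebra.Dimension.Constructions
import Mathlib.RingTheory.PrincipalIdealDomain
import Mathlib.Dynamics.PeriodicPts.Lemmas
import Mathlib.Data.ZMod.Basic

/-!
`SurfH` is free of rank `#X + 2 - #(S-orbits) - #(ST-orbits) - #(T-orbits)`.
-/

set_option autoImplicit false

namespace Fermat.Agent.MF.ParHom

open ModularGroup MulAction
open scoped MatrixGroups Classical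

variable (X : Type*) [MulAction SL(2, ℤ) X] [Fintype X]

/-- Boundary of the faces: `v ↦ (z ↦ v[U⁻¹z] - v[z])`. -/
def faceMap : (Orb X T → ℤ) →ₗ[ℤ] (X → ℤ) where
  toFun v z := v (orbMk T (genU⁻¹ • z)) - v (orbMk T z)
  map_add' v v' := by ext z; simp only [Pi.add_apply]; abel
  map_smul' c v := by ext z; simp [mul_sub]

/-- Difference of the total degrees on the two colours of vertices. -/
noncomputable def degDiff : (Orb X S → ℤ) × (Orb X genU → ℤ) →ₗ[ℤ] ℤ :=
  (∑ o : Orb X S, LinearMap.proj o) ∘ₗ LinearMap.fst ℤ _ _ -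
    (∑ o : Orb X genU, LinearMap.proj o) ∘ₗ LinearMap.snd ℤ _ _

variable {X}

lemma finrank_range_add_ker_int {R M N : Type*} [CommRing R] [IsDomain R] [AddCommGroup M]
    [AddCommGroup N] [Module R M] [Module R N] [Module.Finite R M] (f : M →ₗ[R] N) :
    Module.finrank R (LinearMap.range f) + Module.finrank R (LinearMap.ker f) =
      Module.finrank R M := by
  rw [← f.quotKerEquivRange.finrank_eq]
  exact (LinearMap.ker f).finrank_quotient_add_finrank

lemma degDiff_inl (o : Orb X S) : degDiff X (Pi.single o 1, 0) = 1 := by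
  simp [degDiff, LinearMap.sum_apply]

lemma degDiff_inr (o : Orb X genU) : degDiff X (0, Pi.single o 1) = -1 := by
  simp [degDiff, LinearMap.sum_apply]

lemma range_eps [IsPretransitive SL(2, ℤ) X] [Nonempty X] :
    LinearMap.range (eps X) = LinearMap.ker (degDiff X) := by
  apply le_antisymm
  · rw [LinearMap.range_le_ker_iff]
    refine (Pi.basisFun ℤ X).ext fun x => ?_
    rw [LinearMap.comp_apply, Pi.basisFun_apply, eps_single, LinearMap.zero_apply,
      show ((Pi.single (orbMk S x) 1, Pi.single (orbMk genU x) 1) :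
        (Orb X S → ℤ) × (Orb X genU → ℤ)) =
        (Pi.single (orbMk S x) 1, 0) + (0, Pi.single (orbMk genU x) 1) by simp,
      map_add, degDiff_inl, degDiff_inr, add_neg_cancel]
  · let I := LinearMap.range (eps X)
    let f : X → ((Orb X S → ℤ) × (Orb X genU → ℤ)) ⧸ I :=
      fun x => I.mkQ (Pi.single (orbMk S x) 1, 0)
    have hneg : ∀ x, f x = -I.mkQ (0, Pi.single (orbMk genU x) 1) := by
      intro x
      rw [eq_neg_iff_add_eq_zero, ← map_add, Submodule.mkQ_apply, Submodule.Quotient.mk_eq_zero]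
      exact ⟨Pi.single x 1, by rw [eps_single]; simp⟩
    obtain ⟨x₀⟩ := ‹Nonempty X›
    have hf : ∀ x, f x = f x₀ := fun x => by
      refine const_of_invariant (fun y => ?_) (fun y => ?_) x x₀
      · simp only [f, orbMk_smul]
      · rw [hneg, hneg, orbMk_smul]
    have key : I.mkQ = (LinearMap.toSpanSingleton ℤ _ (f x₀)).comp (degDiff X) := by
      refine LinearMap.prod_ext ((Pi.basisFun ℤ _).ext fun o => ?_)
        ((Pi.basisFun ℤ _).ext fun o => ?_)
      · obtain ⟨x, rfl⟩ := Quotient.exists_rep o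
        simp only [Pi.basisFun_apply, LinearMap.comp_apply, LinearMap.inl_apply, degDiff_inl,
          LinearMap.toSpanSingleton_apply, one_smul]
        exact hf x
      · obtain ⟨x, rfl⟩ := Quotient.exists_rep o
        simp only [Pi.basisFun_apply, LinearMap.comp_apply, LinearMap.inr_apply, degDiff_inr,
          LinearMap.toSpanSingleton_apply, neg_smul, one_smul]
        rw [← hf x, hneg x, neg_neg]
    intro v hv
    have : I.mkQ v = 0 := by
      rw [key, LinearMap.comp_apply, LinearMap.mem_ker.1 hv, map_zero]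
    exact (Submodule.Quotient.mk_eq_zero I).1 this

lemma finrank_ker_eps [IsPretransitive SL(2, ℤ) X] [Nonempty X] :
    Module.finrank ℤ (LinearMap.ker (eps X)) + (Fintype.card (Orb X S) +
      Fintype.card (Orb X genU)) = Fintype.card X + 1 := by
  have h1 := finrank_range_add_ker_int (eps X)
  have h2 := finrank_range_add_ker_int (degDiff X)
  have h3 : LinearMap.range (degDiff X) = ⊤ := by
    obtain ⟨x⟩ := ‹Nonempty X›
    refine LinearMap.range_eq_top.2 fun m => ⟨m • (Pi.single (orbMk S x) 1, 0), ?_⟩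
    rw [map_smul, degDiff_inl, smul_eq_mul, mul_one]
  rw [h3, finrank_top, Module.finrank_self, Module.finrank_prod, Module.finrank_pi,
    Module.finrank_pi] at h2
  rw [range_eps, Module.finrank_pi] at h1
  omega

omit [Fintype X] in
lemma ker_faceMap_const [IsPretransitive SL(2, ℤ) X] {C : Type*} {v : Orb X T → C}
    (h : ∀ z : X, v (orbMk T (genU⁻¹ • z)) = v (orbMk T z)) (x y : X) :
    v (orbMk T x) = v (orbMk T y) := by
  have hU : ∀ z : X, v (orbMk T (genU • z)) = v (orbMk T z) := fun z => by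
    have := h (genU • z)
    rw [inv_smul_smul] at this
    exact this.symm
  refine const_of_invariant (f := fun z => v (orbMk T z)) (fun z => ?_) hU x y
  have hS : S • z = genU • T⁻¹ • z := by
    rw [genU, mul_smul, smul_inv_smul]
  have hT : orbMk T z = orbMk T (T⁻¹ • z) := by
    conv_lhs => rw [← smul_inv_smul T z, orbMk_smul]
  show v (orbMk T (S • z)) = v (orbMk T z)
  rw [hS, hU, hT]

variable (hneg : ∀ x : X, (-1 : SL(2, ℤ)) • x = x)
include hneg

omit [Fintype X] in
lemma fUniv_T (y : X) :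
    fUniv hneg T y = Pi.single (genU • y) 1 - Pi.single (T • y) 1 := by
  have h := fUniv_isCocycle hneg S genU y
  rw [fUniv, fUniv, fUniv, fCoc_S, fCoc_genU, add_zero, ← T_smul_eq hneg] at h
  rw [fUniv, show fCoc hneg (fun y : X => (Pi.single y 1 : X → ℤ)) T y =
      fCoc hneg (fun y : X => (Pi.single y 1 : X → ℤ)) (S * genU) y by rw [T_eq, fCoc_neg], h]

lemma faceMap_single (y : X) :
    faceMap X (Pi.single (orbMk T y) 1) =
      fUniv hneg (T ^ Function.minimalPeriod (T • ·) y) y := by
  set p := Function.minimalPeriod (T • ·) y with hp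
  have hfix : T ^ p • y = y := pow_smul_eq_iff_minimalPeriod_dvd.2 dvd_rfl
  have hppos : 0 < p := by
    haveI : Finite (orbit (Subgroup.zpowers T) y) := Set.finite_coe_iff.2 (Set.toFinite _)
    exact Nat.pos_of_ne_zero (NeZero.ne (Function.minimalPeriod (T • ·) y))
  -- the orbit as a finset
  have himg : (Finset.univ.filter fun x => orbMk T x = orbMk T y) =
      (Finset.range p).image fun i => T ^ i • y := by
    ext x
    simp only [Finset.mem_filter, Finset.mem_univ, true_and, Finset.mem_image, Finset.mem_range]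
    constructor
    · intro hx
      obtain ⟨⟨u, hu⟩, hux⟩ := orbitRel_apply.1 (Quotient.exact hx)
      obtain ⟨k, rfl⟩ := hu
      refine ⟨(k % p).toNat, ?_, ?_⟩
      · have := Int.emod_lt_of_pos k (show (0 : ℤ) < p by omega)
        have := Int.emod_nonneg k (show (p : ℤ) ≠ 0 by omega)
        omega
      · rw [← zpow_natCast, Int.toNat_of_nonneg (Int.emod_nonneg k (by omega)), hp,
          zpow_smul_mod_minimalPeriod]
        exact hux
    · rintro ⟨i, -, rfl⟩
      exact Quotient.sound (orbitRel_apply.2 ⟨⟨T ^ i, pow_mem (Subgroup.mem_zpowers T) i⟩, rfl⟩)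
  have hinj : Set.InjOn (fun i => T ^ i • y) (Finset.range p) := by
    intro i hi j hj e
    simp only [← smul_iterate_apply] at e
    exact (Function.iterate_eq_iterate_iff_of_lt_minimalPeriod (by simpa using hi)
      (by simpa using hj)).1 e
  rw [(fUniv_isCocycle hneg).pow_eq_sum T y p]
  simp only [fUniv_T hneg, Finset.sum_sub_distrib]
  have e2 : ∑ i ∈ Finset.range p, (Pi.single (T • T ^ i • y) 1 : X → ℤ) =
      ∑ i ∈ Finset.range p, Pi.single (T ^ i • y) 1 := by
    have := Finset.sum_range_succ' (fun i => (Pi.single (T ^ i • y) 1 : X → ℤ)) p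
    rw [Finset.sum_range_succ, pow_zero, one_smul, hfix] at this
    rw [add_right_cancel this]
    refine Finset.sum_congr rfl fun i _ => ?_
    rw [pow_succ', mul_smul]
  rw [e2, ← Finset.sum_image (f := fun x => (Pi.single (genU • x) 1 : X → ℤ)) hinj,
    ← Finset.sum_image (f := fun x => (Pi.single x 1 : X → ℤ)) hinj, ← himg]
  ext z
  show (Pi.single (orbMk T y) 1 : Orb X T → ℤ) (orbMk T (genU⁻¹ • z)) -
    (Pi.single (orbMk T y) 1 : Orb X T → ℤ) (orbMk T z) = _
  simp only [Pi.sub_apply, Finset.sum_apply, Pi.single_apply]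
  have h1 : ∀ c : X, (z = genU • c) = (genU⁻¹ • z = c) := fun c =>
    propext ⟨fun h => by rw [h, inv_smul_smul], fun h => by rw [← h, smul_inv_smul]⟩
  simp only [h1, Finset.sum_ite_eq, Finset.mem_filter, Finset.mem_univ, true_and]

lemma cuspLoops_eq : cuspLoops hneg = LinearMap.range (faceMap X) := by
  apply le_antisymm
  · rw [cuspLoops, Submodule.span_le]
    rintro v ⟨k, y, hy, rfl⟩
    obtain ⟨m, rfl⟩ := zpow_smul_eq_iff_minimalPeriod_dvd.1 hy
    set p := Function.minimalPeriod (T • ·) y with hp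
    have hfix : ∀ j : ℤ, T ^ ((p : ℤ) * j) • y = y := fun j =>
      zpow_smul_eq_iff_minimalPeriod_dvd.2 (dvd_mul_right _ _)
    let f : ℤ →+ (X → ℤ) := AddMonoidHom.mk' (fun j => fUniv hneg (T ^ ((p : ℤ) * j)) y)
      fun a b => by rw [mul_add, zpow_add, fUniv_isCocycle hneg, hfix]
    refine ⟨m • Pi.single (orbMk T y) 1, ?_⟩
    rw [map_smul, faceMap_single hneg, show fUniv hneg (T ^ p) y = f 1 from ?_, ← map_zsmul,
      smul_eq_mul, mul_one]
    · rfl
    · show _ = fUniv hneg (T ^ ((p : ℤ) * 1)) y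
      rw [mul_one, zpow_natCast]
  · rw [LinearMap.range_eq_map, ← (Pi.basisFun ℤ _).span_eq, Submodule.map_span, Submodule.span_le]
    rintro v ⟨_, ⟨o, rfl⟩, rfl⟩
    obtain ⟨y, rfl⟩ := Quotient.exists_rep o
    rw [Pi.basisFun_apply, faceMap_single hneg]
    refine Submodule.subset_span ⟨(Function.minimalPeriod (T • ·) y : ℕ), y, ?_, by rw [zpow_natCast]⟩
    rw [zpow_natCast]
    exact pow_smul_eq_iff_minimalPeriod_dvd.2 dvd_rfl

lemma finrank_cuspSub [IsPretransitive SL(2, ℤ) X] [Nonempty X] :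
    Module.finrank ℤ (cuspSub hneg) + 1 = Fintype.card (Orb X T) := by
  have e : Module.finrank ℤ (cuspSub hneg) = Module.finrank ℤ (cuspLoops hneg) :=
    (Submodule.comapSubtypeEquivOfLe (cuspLoops_le hneg)).finrank_eq
  have h1 := finrank_range_add_ker_int (faceMap X)
  rw [Module.finrank_pi] at h1
  obtain ⟨x₀⟩ := ‹Nonempty X›
  let one : ℤ →ₗ[ℤ] (Orb X T → ℤ) := LinearMap.toSpanSingleton ℤ _ (fun _ => 1)
  have hk : LinearMap.ker (faceMap X) = LinearMap.range one := by
    ext v
    constructor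
    · intro hv
      refine ⟨v (orbMk T x₀), ?_⟩
      funext o
      obtain ⟨x, rfl⟩ := Quotient.exists_rep o
      show v (orbMk T x₀) * 1 = v (orbMk T x)
      rw [mul_one]
      exact ker_faceMap_const (fun z => sub_eq_zero.1 (congrFun (LinearMap.mem_ker.1 hv) z)) x₀ x
    · rintro ⟨c, rfl⟩
      ext z
      simp [faceMap, one]
  have hone : Function.Injective one := fun a b h => by
    have := congrFun h (orbMk T x₀)
    simpa [one] using this
  rw [hk, LinearMap.finrank_range_of_inj hone, Module.finrank_self] at h1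
  rw [e, cuspLoops_eq hneg]
  exact h1

theorem finrank_surfH [IsPretransitive SL(2, ℤ) X] [Nonempty X] :
    Module.finrank ℤ (SurfH hneg) + (Fintype.card (Orb X S) + Fintype.card (Orb X genU) +
      Fintype.card (Orb X T)) = Fintype.card X + 2 := by
  have h1 := finrank_ker_eps (X := X)
  have h2 := finrank_cuspSub hneg
  have h3 : Module.finrank ℤ (SurfH hneg) + Module.finrank ℤ (cuspSub hneg) =
      Module.finrank ℤ (LinearMap.ker (eps X)) := (cuspSub hneg).finrank_quotient_add_finrank
  omega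

instance surfH_finite : Module.Finite ℤ (SurfH hneg) := inferInstance

lemma surfH_smul_eq_zero [IsPretransitive SL(2, ℤ) X] {m : ℤ} (hm : m ≠ 0) {q : SurfH hneg}
    (h : m • q = 0) : q = 0 := by
  obtain ⟨z, rfl⟩ := Submodule.mkQ_surjective _ q
  rw [← map_smul, Submodule.mkQ_apply, Submodule.Quotient.mk_eq_zero] at h
  have h' : m • (z : X → ℤ) ∈ cuspLoops hneg := h
  rw [cuspLoops_eq hneg] at h'
  obtain ⟨v, hv⟩ := h'
  rw [Submodule.mkQ_apply, Submodule.Quotient.mk_eq_zero]
  show (z : X → ℤ) ∈ cuspLoops hneg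
  rw [cuspLoops_eq hneg]
  rcases isEmpty_or_nonempty X with hX | ⟨⟨x₀⟩⟩
  · exact ⟨0, by ext x; exact isEmptyElim x⟩
  have hd : ∀ o, m ∣ v o - v (orbMk T x₀) := by
    intro o
    obtain ⟨x, rfl⟩ := Quotient.exists_rep o
    have : ((v (orbMk T x) : ℤ) : ZMod m.natAbs) = (v (orbMk T x₀) : ZMod m.natAbs) := by
      refine ker_faceMap_const (v := fun o => ((v o : ℤ) : ZMod m.natAbs)) (fun y => ?_) x x₀
      rw [ZMod.intCast_eq_intCast_iff_dvd_sub, Int.natAbs_dvd]
      have := congrFun hv y
      exact ⟨-(z : X → ℤ) y, by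
        have e : v (orbMk T (genU⁻¹ • y)) - v (orbMk T y) = m * (z : X → ℤ) y := this
        linarith⟩
    rw [eq_comm, ZMod.intCast_eq_intCast_iff_dvd_sub, Int.natAbs_dvd] at this
    exact this
  choose v' hv' using hd
  refine ⟨v', ?_⟩
  ext y
  have := congrFun hv y
  refine mul_left_cancel₀ hm ?_
  have e : v (orbMk T (genU⁻¹ • y)) - v (orbMk T y) = m * (z : X → ℤ) y := this
  show m * (v' (orbMk T (genU⁻¹ • y)) - v' (orbMk T y)) = _
  rw [mul_sub, ← hv', ← hv', ← e]
  ring

lemma isTorsionFree_surfH [IsPretransitive SL(2, ℤ) X] : IsAddTorsionFree (SurfH hneg) := by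
  refine ⟨fun n hn a b h => ?_⟩
  refine sub_eq_zero.1 (surfH_smul_eq_zero hneg (m := n) (by exact_mod_cast hn) ?_)
  rw [natCast_zsmul, smul_sub]
  exact sub_eq_zero.2 h

theorem free_surfH [IsPretransitive SL(2, ℤ) X] : Module.Free ℤ (SurfH hneg) :=
  have := isTorsionFree_surfH hneg
  Module.free_of_finite_type_torsion_free'

end Fermat.Agent.MF.ParHom
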