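import Fermat.Agent.MF.ParHom.Defs
import Fermat.Agent.MF.ParHom.Rank
import Fermat.Agent.MF.Cosets.Elliptic
import Fermat.Agent.MF.Cosets.Cusps
import Fermat.Prelude.Def_ModularCurve_GenusNumerics
import Mathlib.Analysis.Complex.Basic
import Mathlib.LinearAlgebra.Dimension.Constructions
import Mathlib.LinearAlgebra.FiniteDimensional.Basic
import Mathlib.NumberTheory.ModularForms.CongruenceSubgroups

/-!
`Hom_{par,ell}(Γ₀(N), A) ≅ A^(2g)` by evaluation at fixed elements `parGen N i`, hence natural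
in `A`.
-/

set_option autoImplicit false

namespace Fermat.Agent.MF.ParHom

open CongruenceSubgroup ModularGroup MulAction
open Fermat.Agent.MF.Cosets
open scoped MatrixGroups

/-- Elements with `trace² < 4` have finite order. -/
theorem isOfFinOrder_of_trace_sq_lt {g : SL(2, ℤ)}
    (h : (g : Matrix (Fin 2) (Fin 2) ℤ).trace ^ 2 < 4) : IsOfFinOrder g := by
  rw [Matrix.trace_fin_two] at h
  set a := g 0 0 with ha
  set b := g 0 1 with hb
  set c := g 1 0 with hc
  set d := g 1 1 with hd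
  have hdet : a * d - b * c = 1 := by
    have := g.2
    rwa [Matrix.det_fin_two] at this
  obtain ⟨t, ht1, ht2, ht⟩ : ∃ t : ℤ, -1 ≤ t ∧ t ≤ 1 ∧ a + d = t :=
    ⟨a + d, by nlinarith, by nlinarith, rfl⟩
  have hd' : d = t - a := by linarith
  generalize hM : (g : Matrix (Fin 2) (Fin 2) ℤ) = M
  have e2 : M * M = t • M - 1 := by
    subst hM
    ext i j
    fin_cases i <;> fin_cases j <;>
      simp [Matrix.mul_apply, Matrix.smul_apply, Fin.sum_univ_two, ← ha, ← hb, ← hc, ← hd, -zsmul_eq_mul]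
    · linear_combination a * ht - hdet
    · linear_combination b * ht
    · linear_combination c * ht
    · linear_combination d * ht - hdet
  have e3 : M * M * M = (t * t - 1) • M - t • (1 : Matrix (Fin 2) (Fin 2) ℤ) := by
    rw [e2, sub_mul, one_mul, smul_mul_assoc, e2, smul_sub, smul_smul, sub_smul, one_smul]
    abel
  have hpow : ∀ n : ℕ, M ^ n = 1 → g ^ n = 1 := fun n hn =>
    Subtype.ext (by simpa [hM] using hn)
  rw [isOfFinOrder_iff_pow_eq_one]
  rcases (show t = 0 ∨ t * t = 1 by interval_cases t <;> simp) with rfl | h1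
  · refine ⟨4, by norm_num, hpow _ ?_⟩
    rw [show M ^ 4 = M * M * (M * M) by noncomm_ring, e2]
    simp
  · refine ⟨6, by norm_num, hpow _ ?_⟩
    rw [show M ^ 6 = M * M * M * (M * M * M) by noncomm_ring, e3, h1]
    rw [sub_self, zero_smul, zero_sub, neg_mul_neg, smul_mul_smul_comm, h1, one_mul, one_smul]

variable (N : ℕ) [NeZero N]

noncomputable local instance fintypeX0 : Fintype (X0 N) := Fintype.ofFinite _

omit [NeZero N] in
theorem neg_one_smul_X0 (q : X0 N) : (-1 : SL(2, ℤ)) • q = q := by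
  rw [neg_smul_X0 N 1 q, one_smul]

omit [NeZero N] in
/-- `Γ₀(N)` as the stabiliser of the base coset. -/
def toStab : Gamma0 N →* stabilizer SL(2, ℤ) ((1 : SL(2, ℤ)) : X0 N) where
  toFun γ := ⟨γ, (SetLike.ext_iff.1 (stabilizer_quotient (Gamma0 N)) _).2 γ.2⟩
  map_one' := rfl
  map_mul' _ _ := rfl

omit [NeZero N] in
/-- The stabiliser of the base coset as `Γ₀(N)`. -/
def ofStab : stabilizer SL(2, ℤ) ((1 : SL(2, ℤ)) : X0 N) →* Gamma0 N where
  toFun γ := ⟨γ, (SetLike.ext_iff.1 (stabilizer_quotient (Gamma0 N)) _).1 γ.2⟩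
  map_one' := rfl
  map_mul' _ _ := rfl

/-- The universal homomorphism on `Γ₀(N)`, into the homology of the modular curve. -/
noncomputable def piSurf : Additive (Gamma0 N) →+ SurfH (neg_one_smul_X0 N) :=
  (piUniv (neg_one_smul_X0 N) ((1 : SL(2, ℤ)) : X0 N)).comp (MonoidHom.toAdditive (toStab N))

theorem piSurf_surjective : Function.Surjective (piSurf N) := by
  intro v
  obtain ⟨γ, rfl⟩ := piUniv_surjective (neg_one_smul_X0 N) ((1 : SL(2, ℤ)) : X0 N) v
  exact ⟨Additive.ofMul (ofStab N (Additive.toMul γ)), rfl⟩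

theorem piSurf_factor {A : Type*} [AddCommGroup A] (φ : Additive (Gamma0 N) →+ A)
    (hφ : ∀ γ : Gamma0 N,
      ((γ : SL(2, ℤ)) : Matrix (Fin 2) (Fin 2) ℤ).trace ^ 2 ≤ 4 → φ (Additive.ofMul γ) = 0) :
    ∃ ψ : SurfH (neg_one_smul_X0 N) →ₗ[ℤ] A, ∀ γ, φ γ = ψ (piSurf N γ) := by
  obtain ⟨ψ, hψ⟩ := exists_factor (neg_one_smul_X0 N) ((1 : SL(2, ℤ)) : X0 N)
    (φ.comp (MonoidHom.toAdditive (ofStab N))) fun γ h => hφ _ h
  exact ⟨ψ, fun γ => hψ (MonoidHom.toAdditive (toStab N) γ)⟩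

/-- The rank `2g` of `Hom_{par,ell}(Γ₀(N), ℤ)`. -/
noncomputable def parRank : ℕ := Module.finrank ℤ (SurfH (neg_one_smul_X0 N))

theorem parRank_eq : (parRank N : ℚ) = 2 * ModularCurve.genusFormula N := by
  have h := finrank_surfH (neg_one_smul_X0 N)
  rw [← Nat.card_eq_fintype_card, ← Nat.card_eq_fintype_card, ← Nat.card_eq_fintype_card,
    ← Nat.card_eq_fintype_card] at h
  have hX := card_X0 N
  have hS := two_mul_card_orbits_S N
  have hU := three_mul_card_orbits_ST N
  have hT := card_TOrbits N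
  change parRank N + (Nat.card (Orb (X0 N) S) + Nat.card (Orb (X0 N) (S * T)) +
    Nat.card (TOrbits N)) = Nat.card (X0 N) + 2 at h
  rw [hX, hT] at h
  have h' : (parRank N : ℚ) + ((Nat.card (Orb (X0 N) S) : ℚ) +
      (Nat.card (Orb (X0 N) (S * T)) : ℚ) + (ModularCurve.cuspCount N : ℚ)) =
      (ModularCurve.dedekindPsi N : ℚ) + 2 := by exact_mod_cast h
  have hS' : 2 * (Nat.card (Orb (X0 N) S) : ℚ) =
      (ModularCurve.dedekindPsi N : ℚ) + ModularCurve.nuTwo N := by exact_mod_cast hS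
  have hU' : 3 * (Nat.card (Orb (X0 N) (S * T)) : ℚ) =
      (ModularCurve.dedekindPsi N : ℚ) + 2 * ModularCurve.nuThree N := by exact_mod_cast hU
  rw [ModularCurve.genusFormula]
  linarith

/-- A basis of the homology. -/
noncomputable def surfBasis : Module.Basis (Fin (parRank N)) ℤ (SurfH (neg_one_smul_X0 N)) :=
  haveI := free_surfH (neg_one_smul_X0 N)
  Module.finBasis ℤ _

/-- Elements of `Γ₀(N)` dual to a basis of `Hom_{par,ell}`. -/
noncomputable def parGen (i : Fin (parRank N)) : Gamma0 N :=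
  Additive.toMul (Function.surjInv (piSurf_surjective N) (surfBasis N i))

/-- The universal parabolic, elliptic homomorphism `Γ₀(N) → ℤ^(2g)`. -/
noncomputable def piPar : Additive (Gamma0 N) →+ (Fin (parRank N) → ℤ) :=
  (surfBasis N).equivFun.toLinearMap.toAddMonoidHom.comp (piSurf N)

theorem piPar_mem : piPar N ∈ ellParHoms ℤ (Gamma0 N) (Fin (parRank N) → ℤ) := by
  refine ⟨fun γ hγ => ?_, isEllipticHom_of_torsionFree _⟩
  show (surfBasis N).equivFun (piSurf N (Additive.ofMul γ)) = 0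
  rw [show piSurf N (Additive.ofMul γ) = 0 from piUniv_parabolic _ _ (toStab N γ) hγ, map_zero]

theorem piPar_parGen (i : Fin (parRank N)) :
    piPar N (Additive.ofMul (parGen N i)) = Pi.single i 1 := by
  show (surfBasis N).equivFun (piSurf N (Additive.ofMul (parGen N i))) = _
  rw [parGen, ofMul_toMul, Function.surjInv_eq (piSurf_surjective N)]
  ext j
  simp [Module.Basis.equivFun_apply, Finsupp.single_apply, Pi.single_apply, eq_comm]

theorem piPar_surjective : Function.Surjective (piPar N) :=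
  (surfBasis N).equivFun.surjective.comp (piSurf_surjective N)

omit [NeZero N] in
theorem eq_zero_of_trace_sq_le {A : Type*} [AddCommGroup A] {φ : Additive (Gamma0 N) →+ A}
    (hφ : φ ∈ ellParHoms ℤ (Gamma0 N) A) (γ : Gamma0 N)
    (h : ((γ : SL(2, ℤ)) : Matrix (Fin 2) (Fin 2) ℤ).trace ^ 2 ≤ 4) :
    φ (Additive.ofMul γ) = 0 := by
  rcases h.lt_or_eq with h | h
  · refine hφ.2 γ ?_
    obtain ⟨n, hn, e⟩ := isOfFinOrder_iff_pow_eq_one.1 (isOfFinOrder_of_trace_sq_lt h)
    exact isOfFinOrder_iff_pow_eq_one.2 ⟨n, hn, Subtype.ext (by simpa using e)⟩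
  · exact hφ.1 γ h

/-- Universality, for homomorphisms killing every `γ` with `trace² ≤ 4`. -/
theorem eq_sum_piPar' {A : Type*} [AddCommGroup A] (φ : Additive (Gamma0 N) →+ A)
    (hφ : ∀ γ : Gamma0 N,
      ((γ : SL(2, ℤ)) : Matrix (Fin 2) (Fin 2) ℤ).trace ^ 2 ≤ 4 → φ (Additive.ofMul γ) = 0)
    (δ : Additive (Gamma0 N)) :
    φ δ = ∑ i, piPar N δ i • φ (Additive.ofMul (parGen N i)) := by
  obtain ⟨ψ, hψ⟩ := piSurf_factor N φ hφ
  simp only [hψ, parGen, ofMul_toMul, Function.surjInv_eq (piSurf_surjective N), ← map_zsmul,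
    ← map_sum]
  congr 1
  exact ((surfBasis N).sum_equivFun _).symm

theorem eq_sum_piPar {A : Type*} [AddCommGroup A] {φ : Additive (Gamma0 N) →+ A}
    (hφ : φ ∈ ellParHoms ℤ (Gamma0 N) A) (δ : Additive (Gamma0 N)) :
    φ δ = ∑ i, piPar N δ i • φ (Additive.ofMul (parGen N i)) :=
  eq_sum_piPar' N φ (eq_zero_of_trace_sq_le N hφ) δ

/-- `ellParHoms` is exactly the homomorphisms killing `trace² ≤ 4`. -/
theorem mem_ellParHoms_iff_trace_sq_le {R A : Type*} [Semiring R] [AddCommGroup A] [Module R A]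
    (φ : Additive (Gamma0 N) →+ A) :
    φ ∈ ellParHoms R (Gamma0 N) A ↔ ∀ γ : Gamma0 N,
      ((γ : SL(2, ℤ)) : Matrix (Fin 2) (Fin 2) ℤ).trace ^ 2 ≤ 4 → φ (Additive.ofMul γ) = 0 := by
  refine ⟨fun h => eq_zero_of_trace_sq_le N (⟨h.1, h.2⟩ : φ ∈ ellParHoms ℤ _ A),
    fun h => ⟨fun γ hγ => h γ hγ.le, fun γ hγ => ?_⟩⟩
  rw [eq_sum_piPar' N φ h]
  simp [(piPar_mem N).2 γ hγ]

variable (R : Type*) [Ring R] (A : Type*) [AddCommGroup A] [Module R A]

/-- Evaluation at `parGen`: `Hom_{par,ell}(Γ₀(N), A) ≅ A^(2g)`, natural in `A`. -/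
noncomputable def evalEquiv : ellParHoms R (Gamma0 N) A ≃ₗ[R] (Fin (parRank N) → A) where
  toFun φ i := (φ : Additive (Gamma0 N) →+ A) (Additive.ofMul (parGen N i))
  map_add' _ _ := rfl
  map_smul' _ _ := rfl
  invFun v :=
    ⟨AddMonoidHom.mk' (fun δ => ∑ i, piPar N δ i • v i) fun a b => by
        simp [add_smul, Finset.sum_add_distrib],
      fun γ hγ => by simp [(piPar_mem N).1 γ hγ],
      fun γ hγ => by simp [(piPar_mem N).2 γ hγ]⟩
  left_inv φ := Subtype.ext (AddMonoidHom.ext fun δ =>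
    (eq_sum_piPar N (⟨φ.2.1, φ.2.2⟩ : (φ : Additive (Gamma0 N) →+ A) ∈ ellParHoms ℤ _ A) δ).symm)
  right_inv v := by
    ext i
    simp [piPar_parGen, Pi.single_apply, ite_smul]

theorem evalEquiv_apply (φ : ellParHoms R (Gamma0 N) A) (i : Fin (parRank N)) :
    evalEquiv N R A φ i = (φ : Additive (Gamma0 N) →+ A) (Additive.ofMul (parGen N i)) :=
  rfl

theorem evalEquiv_symm_apply (v : Fin (parRank N) → A) (δ : Additive (Gamma0 N)) :
    ((evalEquiv N R A).symm v : Additive (Gamma0 N) →+ A) δ = ∑ i, piPar N δ i • v i :=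
  rfl

instance ellParHoms_free : Module.Free R (ellParHoms R (Gamma0 N) R) :=
  Module.Free.of_equiv (evalEquiv N R R).symm

instance ellParHoms_module_finite : Module.Finite R (ellParHoms R (Gamma0 N) R) :=
  Module.Finite.equiv (evalEquiv N R R).symm

theorem finite_ellParHoms [Finite A] : Finite (ellParHoms R (Gamma0 N) A) :=
  Finite.of_equiv _ (evalEquiv N R A).symm.toEquiv

theorem card_ellParHoms :
    Nat.card (ellParHoms R (Gamma0 N) A) = Nat.card A ^ parRank N := by
  rw [Nat.card_congr (evalEquiv N R A).toEquiv, Nat.card_fun, Nat.card_fin]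

theorem finrank_ellParHoms [StrongRankCondition R] :
    Module.finrank R (ellParHoms R (Gamma0 N) R) = parRank N := by
  rw [(evalEquiv N R R).finrank_eq, Module.finrank_pi, Fintype.card_fin]

omit R A

theorem finrank_parabolicHoms_complex :
    (Module.finrank ℂ (ModularCurve.Period.parabolicHoms ℂ (Gamma0 N) ℂ) : ℚ)
      = 2 * ModularCurve.genusFormula N := by
  rw [← ellParHoms_eq_parabolicHoms, finrank_ellParHoms, parRank_eq]

theorem finiteDimensional_parabolicHoms_complex :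
    FiniteDimensional ℂ (ModularCurve.Period.parabolicHoms ℂ (Gamma0 N) ℂ) := by
  rw [← ellParHoms_eq_parabolicHoms]
  infer_instance

end Fermat.Agent.MF.ParHom
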