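import Fermat.Agent.MF.ParHom.Main
import Fermat.Agent.HK.Defs
import Mathlib.Data.ZMod.Basic
import Mathlib.SetTheory.Cardinal.Finite

/-!
The bridge to `HK.parEllHoms`.
-/

set_option autoImplicit false

namespace Fermat.Agent.MF.ParHom

open CongruenceSubgroup
open Fermat.Agent.HK (parEllHoms parEllHomsMap)

variable (N : ℕ) [NeZero N] (A : Type*) [AddCommGroup A]

theorem parEllHoms_eq : parEllHoms N A = (ellParHoms ℤ (Gamma0 N) A).toAddSubgroup := by
  ext φ
  exact (mem_ellParHoms_iff_trace_sq_le N (R := ℤ) φ).symm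

/-- Evaluation at `parGen` on `parEllHoms`. -/
noncomputable def parEllEquiv : parEllHoms N A ≃+ (Fin (parRank N) → A) :=
  (AddEquiv.addSubgroupCongr (parEllHoms_eq N A)).trans (evalEquiv N ℤ A).toAddEquiv

theorem parEllEquiv_apply (φ : parEllHoms N A) (i : Fin (parRank N)) :
    parEllEquiv N A φ i = (φ : Additive (Gamma0 N) →+ A) (Additive.ofMul (parGen N i)) :=
  rfl

theorem parEllEquiv_map {B : Type*} [AddCommGroup B] (h : A →+ B) (φ : parEllHoms N A) :
    parEllEquiv N B (parEllHomsMap h φ) = fun i => h (parEllEquiv N A φ i) :=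
  rfl

instance finite_parEllHoms [Finite A] : Finite (parEllHoms N A) :=
  Finite.of_equiv _ (parEllEquiv N A).symm.toEquiv

theorem card_parEllHoms : Nat.card (parEllHoms N A) = Nat.card A ^ parRank N := by
  rw [Nat.card_congr (parEllEquiv N A).toEquiv, Nat.card_fun, Nat.card_fin]

theorem card_parEllHoms_zmod (n : ℕ) :
    Nat.card (parEllHoms N (ZMod n)) = n ^ parRank N := by
  rw [card_parEllHoms, Nat.card_zmod]

theorem parEllHomsMap_surjective {B : Type*} [AddCommGroup B] {h : A →+ B}
    (hh : Function.Surjective h) : Function.Surjective (parEllHomsMap (N := N) h) := by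
  intro ψ
  choose v hv using fun i => hh (parEllEquiv N B ψ i)
  refine ⟨(parEllEquiv N A).symm v, (parEllEquiv N B).injective ?_⟩
  rw [parEllEquiv_map, AddEquiv.apply_symm_apply]
  exact funext hv

end Fermat.Agent.MF.ParHom
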