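import Mathlib.LinearAlgebra.Matrix.SpecialLinearGroup
import Mathlib.LinearAlgebra.Matrix.FixedDetMatrices
import Mathlib.GroupTheory.OrderOfElement
import Mathlib.Tactic

/-!
The universal property `PSL(2,ℤ) = C₂ * C₃`, by an elementary normal form, and the
classification of elements of `SL(2,ℤ)` with trace squared `4`.
-/

set_option autoImplicit false

namespace Fermat.Agent.MF.ParHom

open ModularGroup Matrix.SpecialLinearGroup
open scoped MatrixGroups

/-- The standard element `S * T` of order six. -/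
def genU : SL(2, ℤ) := S * T

/-- The lower unipotent generator. -/
def genL : SL(2, ℤ) := ⟨!![1, 0; 1, 1], by norm_num [Matrix.det_fin_two_of]⟩

lemma coe_genL : (genL : Matrix (Fin 2) (Fin 2) ℤ) = !![1, 0; 1, 1] := rfl

lemma S_sq : S * S = -1 := by decide
lemma genU_cube : genU * genU * genU = -1 := by decide
lemma T_eq : T = -(S * genU) := by decide
lemma genL_eq : genL = -(S * (genU * genU)) := by decide

lemma closure_S_genU : Subgroup.closure ({S, genU} : Set SL(2, ℤ)) = ⊤ := by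
  rw [eq_top_iff, ← SpecialLinearGroup.SL2Z_generators, Subgroup.closure_le]
  rintro x (rfl | rfl)
  · exact Subgroup.subset_closure (by simp)
  · have : T = S⁻¹ * genU := by simp [genU]
    rw [this]
    exact mul_mem (inv_mem (Subgroup.subset_closure (by simp))) (Subgroup.subset_closure (by simp))

/-- Equality up to sign. -/
def EqSign (g h : SL(2, ℤ)) : Prop := g = h ∨ g = -h

lemma EqSign.mul_right {g h : SL(2, ℤ)} (e : EqSign g h) (k : SL(2, ℤ)) :
    EqSign (g * k) (h * k) := by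
  rcases e with rfl | rfl
  · exact Or.inl rfl
  · exact Or.inr (by simp)

lemma EqSign.trans {g h k : SL(2, ℤ)} (e : EqSign g h) (e' : EqSign h k) : EqSign g k := by
  rcases e with rfl | rfl <;> rcases e' with rfl | rfl <;> simp [EqSign]

variable {H : Type*} [Group H] (s u : H)

/-- Products of `s*u ↦ T` and `s*u² ↦ genL`. -/
inductive PosWord : H → SL(2, ℤ) → Prop
  | one : PosWord 1 1
  | stepT {p : H} {P : SL(2, ℤ)} : PosWord p P → PosWord (p * (s * u)) (P * T)
  | stepL {p : H} {P : SL(2, ℤ)} : PosWord p P → PosWord (p * (s * (u * u))) (P * genL)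

variable {s u}

lemma PosWord.pos {p : H} {P : SL(2, ℤ)} (h : PosWord s u p P) :
    (∀ i j, 0 ≤ P i j) ∧ 0 < P 0 0 ∧ 0 < P 1 1 ∧
      ((p = 1 ∧ P = 1) ∨ 0 < P 0 1 ∨ 0 < P 1 0) := by
  induction h with
  | one => exact ⟨fun i j => by fin_cases i <;> fin_cases j <;> simp, by simp, by simp,
      Or.inl ⟨rfl, rfl⟩⟩
  | @stepT p P _ ih =>
    obtain ⟨h1, h2, h3, -⟩ := ih
    have := h1 0 1; have := h1 1 0
    refine ⟨fun i j => ?_, ?_, ?_, Or.inr (Or.inl ?_)⟩
    · fin_cases i <;> fin_cases j <;> simp [Matrix.mul_apply, coe_T] <;> omega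
    all_goals (simp [Matrix.mul_apply, coe_T] <;> omega)
  | @stepL p P _ ih =>
    obtain ⟨h1, h2, h3, -⟩ := ih
    have := h1 0 1; have := h1 1 0
    refine ⟨fun i j => ?_, ?_, ?_, Or.inr (Or.inr ?_)⟩
    · fin_cases i <;> fin_cases j <;> simp [Matrix.mul_apply, coe_genL] <;> omega
    all_goals (simp [Matrix.mul_apply, coe_genL] <;> omega)

variable (s u) in
/-- Normal forms `uᵃ · word · sᵇ`. -/
def HasNF (h : H) (g : SL(2, ℤ)) : Prop :=
  ∃ (a b : ℕ) (p : H) (P : SL(2, ℤ)), a < 3 ∧ b < 2 ∧ PosWord s u p P ∧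
    h = u ^ a * p * s ^ b ∧ EqSign g (genU ^ a * P * S ^ b)

lemma HasNF.one : HasNF s u (1 : H) 1 :=
  ⟨0, 0, 1, 1, by norm_num, by norm_num, PosWord.one, by simp, Or.inl (by simp)⟩

lemma HasNF.mul_s (hs : s * s = 1) {h : H} {g : SL(2, ℤ)} (n : HasNF s u h g) :
    HasNF s u (h * s) (g * S) := by
  obtain ⟨a, b, p, P, ha, hb, hp, rfl, hg⟩ := n
  interval_cases b
  · exact ⟨a, 1, p, P, ha, by norm_num, hp, by simp, by simpa using hg.mul_right S⟩
  · refine ⟨a, 0, p, P, ha, by norm_num, hp, by simp [mul_assoc, hs], ?_⟩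
    refine (hg.mul_right S).trans (Or.inr ?_)
    simp [mul_assoc, S_sq]

lemma HasNF.mul_u (hs : s * s = 1) (hu : u * u * u = 1) {h : H} {g : SL(2, ℤ)}
    (n : HasNF s u h g) : HasNF s u (h * u) (g * genU) := by
  obtain ⟨a, b, p, P, ha, hb, hp, rfl, hg⟩ := n
  have hg' := hg.mul_right genU
  interval_cases b
  · simp only [pow_zero, mul_one] at hg' ⊢
    cases hp with
    | one =>
      interval_cases a
      · exact ⟨1, 0, 1, 1, by norm_num, by norm_num, .one, by simp, by simpa using hg'⟩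
      · exact ⟨2, 0, 1, 1, by norm_num, by norm_num, .one, by simp [pow_two],
          by simpa [pow_two] using hg'⟩
      · refine ⟨0, 0, 1, 1, by norm_num, by norm_num, .one, by simp [pow_two, hu], ?_⟩
        exact hg'.trans (Or.inr (by simp [pow_two, genU_cube]))
    | @stepT q Q hq =>
      refine ⟨a, 0, _, _, ha, by norm_num, hq.stepL, by simp [mul_assoc], ?_⟩
      refine hg'.trans (Or.inl ?_)
      simp [mul_assoc, T_eq, genL_eq]
    | @stepL q Q hq =>
      refine ⟨a, 1, q, Q, ha, by norm_num, hq, ?_, hg'.trans (Or.inl ?_)⟩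
      · rw [pow_one]
        simp only [mul_assoc] at hu ⊢
        rw [hu, mul_one]
      · rw [genL_eq, pow_one]
        have : -(S * (genU * genU)) * genU = S := by
          rw [neg_mul, mul_assoc, genU_cube]; simp
        simp only [mul_assoc] at this ⊢
        rw [this]
  · refine ⟨a, 0, _, _, ha, by norm_num, hp.stepT, by simp [mul_assoc], hg'.trans (Or.inr ?_)⟩
    simp [mul_assoc, T_eq]

lemma HasNF.eq_one {h : H} {g : SL(2, ℤ)} (n : HasNF s u h g) (hg : EqSign g 1) : h = 1 := by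
  obtain ⟨a, b, p, P, ha, hb, hp, rfl, hg'⟩ := n
  obtain ⟨hnn, h00, h11, hcase⟩ := hp.pos
  have hG : EqSign (genU ^ a * P * S ^ b) 1 := by
    rcases hg' with e | e <;> rcases hg with e' | e'
    · exact Or.inl (e ▸ e')
    · exact Or.inr (e ▸ e')
    · exact Or.inr (by rw [← e', e, neg_neg])
    · exact Or.inl (by rw [e] at e'; exact neg_injective e')
  -- solve for `P`
  have hP : EqSign P ((genU ^ a)⁻¹ * (S ^ b)⁻¹) := by
    rcases hG with e | e
    · left
      have := congrArg (fun t => (genU ^ a)⁻¹ * t * (S ^ b)⁻¹) e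
      simpa [mul_assoc] using this
    · right
      have := congrArg (fun t => (genU ^ a)⁻¹ * t * (S ^ b)⁻¹) e
      simpa [mul_assoc] using this
  have key : ∀ (M : SL(2, ℤ)), P = M →
      0 < M 0 0 ∧ 0 < M 1 1 ∧ 0 ≤ M 0 1 ∧ 0 ≤ M 1 0 := by
    rintro M rfl; exact ⟨h00, h11, hnn 0 1, hnn 1 0⟩
  interval_cases a <;> interval_cases b
  case' «0».«0» =>
    rcases hcase with ⟨rfl, -⟩ | hc | hc
    · simp
    all_goals
      exfalso
      rcases hP with e | e <;> rw [e] at hc <;> simp at hc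
  all_goals
    exfalso
    rcases hP with e | e <;> obtain ⟨k1, k2, k3, k4⟩ := key _ e <;> revert k1 k2 k3 k4 <;> decide

variable (s u) in
lemma mem_gen_s : (s, S) ∈ Subgroup.closure ({(s, S), (u, genU)} : Set (H × SL(2, ℤ))) :=
  Subgroup.subset_closure (Set.mem_insert _ _)

variable (s u) in
lemma mem_gen_u : (u, genU) ∈ Subgroup.closure ({(s, S), (u, genU)} : Set (H × SL(2, ℤ))) :=
  Subgroup.subset_closure (Set.mem_insert_of_mem _ rfl)

variable (hs : s * s = 1) (hu : u * u * u = 1)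
include hs hu

lemma exists_hasNF (g : SL(2, ℤ)) : ∃ h, HasNF s u h g ∧
    (h, g) ∈ Subgroup.closure ({(s, S), (u, genU)} : Set (H × SL(2, ℤ))) := by
  have hS : S⁻¹ = S * S * S := by decide
  have hU : genU⁻¹ = genU * genU * genU * genU * genU := by decide
  refine Subgroup.closure_induction_right (p := fun g _ => ∃ h, HasNF s u h g ∧
    (h, g) ∈ Subgroup.closure ({(s, S), (u, genU)} : Set (H × SL(2, ℤ)))) ?_ ?_ ?_
    (closure_S_genU.symm ▸ Subgroup.mem_top g : g ∈ Subgroup.closure ({S, genU} : Set SL(2, ℤ)))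
  · exact ⟨1, .one, one_mem _⟩
  · rintro x - y hy ⟨h, hn, hm⟩
    rcases hy with rfl | rfl
    · exact ⟨h * s, hn.mul_s hs, mul_mem hm (mem_gen_s s u)⟩
    · exact ⟨h * u, hn.mul_u hs hu, mul_mem hm (mem_gen_u s u)⟩
  · rintro x - y hy ⟨h, hn, hm⟩
    rcases hy with rfl | rfl
    · refine ⟨h * (s * s * s), ?_, ?_⟩
      · rw [hS]
        simpa [mul_assoc] using ((hn.mul_s hs).mul_s hs).mul_s hs
      · rw [hS]
        exact mul_mem hm (mul_mem (mul_mem (mem_gen_s s u)
          (mem_gen_s s u)) (mem_gen_s s u))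
    · refine ⟨h * (u * u * u * u * u), ?_, ?_⟩
      · rw [hU]
        simpa [mul_assoc] using
          ((((hn.mul_u hs hu).mul_u hs hu).mul_u hs hu).mul_u hs hu).mul_u hs hu
      · rw [hU]
        have m := mem_gen_u s u
        exact mul_mem hm (mul_mem (mul_mem (mul_mem (mul_mem m m) m) m) m)

/-- The first component of the relation subgroup over `±1` is trivial. -/
lemma eq_one_of_mem_closure {h : H} {g : SL(2, ℤ)}
    (hm : (h, g) ∈ Subgroup.closure ({(s, S), (u, genU)} : Set (H × SL(2, ℤ))))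
    (hg : EqSign g 1) : h = 1 := by
  suffices ∀ x ∈ Subgroup.closure ({(s, S), (u, genU)} : Set (H × SL(2, ℤ))),
      HasNF s u x.1 x.2 from (this _ hm).eq_one hg
  have sN : ∀ {h : H} {g : SL(2, ℤ)}, HasNF s u h g → HasNF s u (h * s) (g * S) :=
    fun n => n.mul_s hs
  have uN : ∀ {h : H} {g : SL(2, ℤ)}, HasNF s u h g → HasNF s u (h * u) (g * genU) :=
    fun n => n.mul_u hs hu
  have hsi : ((s, S) : H × SL(2, ℤ))⁻¹ = (s * s * s, S * S * S) := by
    refine Prod.ext ?_ ?_
    · exact (eq_inv_of_mul_eq_one_left (by rw [hs, one_mul, hs])).symm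
    · show S⁻¹ = S * S * S
      clear hs hu; decide
  have hui : ((u, genU) : H × SL(2, ℤ))⁻¹ =
      (u * u * u * u * u, genU * genU * genU * genU * genU) := by
    refine Prod.ext ?_ ?_
    · exact (eq_inv_of_mul_eq_one_left (by rw [hu, one_mul]; exact hu)).symm
    · show genU⁻¹ = genU * genU * genU * genU * genU
      clear hs hu; decide
  intro x hx
  refine Subgroup.closure_induction_right (p := fun x _ => HasNF s u x.1 x.2) .one ?_ ?_ hx
  · rintro x - y (rfl | rfl) hn
    · exact sN hn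
    · exact uN hn
  · rintro x - y (rfl | rfl) hn
    · rw [hsi]
      simpa [mul_assoc] using sN (sN (sN hn))
    · rw [hui]
      simpa [mul_assoc] using uN (uN (uN (uN (uN hn))))

/-- Value of the universal homomorphism. -/
noncomputable def liftFun (g : SL(2, ℤ)) : H := (exists_hasNF hs hu g).choose

lemma liftFun_mem (g : SL(2, ℤ)) :
    (liftFun hs hu g, g) ∈ Subgroup.closure ({(s, S), (u, genU)} : Set (H × SL(2, ℤ))) :=
  (exists_hasNF hs hu g).choose_spec.2

lemma liftFun_unique {h : H} {g : SL(2, ℤ)}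
    (hm : (h, g) ∈ Subgroup.closure ({(s, S), (u, genU)} : Set (H × SL(2, ℤ)))) :
    liftFun hs hu g = h := by
  have h1 : h⁻¹ * liftFun hs hu g = 1 := by
    refine eq_one_of_mem_closure hs hu (g := g⁻¹ * g) ?_ (Or.inl (by simp))
    exact mul_mem (inv_mem hm) (liftFun_mem hs hu g)
  rw [inv_mul_eq_one] at h1
  exact h1.symm

/-- Universal property of `SL(2,ℤ) → C₂ * C₃`. -/
noncomputable def slLift : SL(2, ℤ) →* H :=
  MonoidHom.mk' (liftFun hs hu) fun g g' =>
    liftFun_unique hs hu (mul_mem (liftFun_mem hs hu g) (liftFun_mem hs hu g'))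

@[simp] lemma slLift_S : slLift hs hu S = s :=
  liftFun_unique hs hu (mem_gen_s s u)

@[simp] lemma slLift_genU : slLift hs hu genU = u :=
  liftFun_unique hs hu (mem_gen_u s u)

omit hs hu

/-- An element with trace squared `4` is, up to sign, conjugate to a power of `T`. -/
theorem exists_conj_T_zpow {γ : SL(2, ℤ)}
    (h : (γ : Matrix (Fin 2) (Fin 2) ℤ).trace ^ 2 = 4) :
    ∃ (g : SL(2, ℤ)) (n : ℤ), γ = g * T ^ n * g⁻¹ ∨ γ = -(g * T ^ n * g⁻¹) := by
  suffices key : ∀ M : SL(2, ℤ), (M : Matrix (Fin 2) (Fin 2) ℤ).trace = 2 →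
      ∃ (g : SL(2, ℤ)) (n : ℤ), M = g * T ^ n * g⁻¹ by
    have h4 : (γ : Matrix (Fin 2) (Fin 2) ℤ).trace = 2 ∨
        (γ : Matrix (Fin 2) (Fin 2) ℤ).trace = -2 := by
      have : ((γ : Matrix (Fin 2) (Fin 2) ℤ).trace - 2) *
          ((γ : Matrix (Fin 2) (Fin 2) ℤ).trace + 2) = 0 := by linear_combination h
      rcases mul_eq_zero.1 this with e | e
      · left; omega
      · right; omega
    rcases h4 with e | e
    · obtain ⟨g, n, hg⟩ := key γ e
      exact ⟨g, n, Or.inl hg⟩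
    · obtain ⟨g, n, hg⟩ := key (-γ) (by rw [coe_neg, Matrix.trace_neg, e, neg_neg])
      exact ⟨g, n, Or.inr (by rw [← hg, neg_neg])⟩
  intro M hM
  rw [Matrix.trace_fin_two] at hM
  have hdet : M 0 0 * M 1 1 - M 0 1 * M 1 0 = 1 := by
    rw [← Matrix.det_fin_two]; exact M.2
  by_cases hc : M 1 0 = 0
  · refine ⟨1, M 0 1, ?_⟩
    rw [hc, mul_zero, sub_zero] at hdet
    have : M 0 0 = 1 := by
      rcases Int.mul_eq_one_iff_eq_one_or_neg_one.1 hdet with ⟨e, e'⟩ | ⟨e, e'⟩ <;> omega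
    have : M 1 1 = 1 := by omega
    simp only [one_mul, inv_one, mul_one]
    ext i j
    fin_cases i <;> fin_cases j <;> simp [coe_T_zpow, *]
  · obtain ⟨p, r, d, hpa, hrc, hd, hcop⟩ : ∃ p r d : ℤ,
        M 0 0 - 1 = d * p ∧ M 1 0 = d * r ∧ d ≠ 0 ∧ IsCoprime p r := by
      refine ⟨(M 0 0 - 1) / (Int.gcd (M 0 0 - 1) (M 1 0)), M 1 0 / (Int.gcd (M 0 0 - 1) (M 1 0)),
        Int.gcd (M 0 0 - 1) (M 1 0), ?_, ?_, ?_, ?_⟩
      · exact (Int.mul_ediv_cancel' (Int.gcd_dvd_left _ _)).symm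
      · exact (Int.mul_ediv_cancel' (Int.gcd_dvd_right _ _)).symm
      · simp [Int.gcd_eq_zero_iff, hc]
      · rw [Int.isCoprime_iff_gcd_eq_one]
        exact Int.gcd_ediv_gcd_ediv_gcd (Nat.pos_of_ne_zero (by simp [Int.gcd_eq_zero_iff, hc]))
    obtain ⟨x, y, hxy⟩ := hcop
    obtain ⟨g, hg⟩ : ∃ g : SL(2, ℤ), (g : Matrix (Fin 2) (Fin 2) ℤ) = !![p, -y; r, x] :=
      ⟨⟨!![p, -y; r, x], by rw [Matrix.det_fin_two_of]; linarith⟩, rfl⟩
    have hgi : ((g⁻¹ : SL(2, ℤ)) : Matrix (Fin 2) (Fin 2) ℤ) = !![x, y; -r, p] := by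
      rw [coe_inv, hg, Matrix.adjugate_fin_two_of, neg_neg]
    have e1 : (M 0 0 - 1) * p + M 0 1 * r = 0 := by
      apply mul_left_cancel₀ hd
      rw [mul_zero]
      linear_combination (-(M 0 0 - 1)) * hpa - M 0 1 * hrc - hdet + M 0 0 * hM
    have e2 : M 1 0 * p + (M 1 1 - 1) * r = 0 := by
      apply mul_left_cancel₀ hd
      rw [mul_zero]
      linear_combination (-M 1 0) * hpa - (M 1 1 - 1) * hrc + M 1 0 * hM
    have hA00 : (g⁻¹ * M * g) 0 0 = 1 := by
      simp [Matrix.mul_apply, Matrix.vecMul, dotProduct, Fin.sum_univ_two, hg, hgi]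
      linear_combination x * e1 + y * e2 + hxy
    have hA10 : (g⁻¹ * M * g) 1 0 = 0 := by
      simp [Matrix.mul_apply, Matrix.vecMul, dotProduct, Fin.sum_univ_two, hg, hgi]
      linear_combination p * e2 - r * e1
    have hA11 : (g⁻¹ * M * g) 1 1 = 1 := by
      have := (g⁻¹ * M * g).2
      rw [Matrix.det_fin_two] at this
      rw [hA00, hA10] at this
      linarith
    refine ⟨g, (g⁻¹ * M * g) 0 1, ?_⟩
    generalize hA : g⁻¹ * M * g = A at hA00 hA10 hA11 ⊢
    have : A = T ^ (A 0 1) := by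
      ext i j
      fin_cases i <;> fin_cases j <;> simp [coe_T_zpow, hA00, hA10, hA11]
    rw [← this, ← hA]; group

end Fermat.Agent.MF.ParHom
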