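import Fermat.Prelude.Def_ModularCurve_PeriodMap
import Mathlib.GroupTheory.OrderOfElement
import Mathlib.Algebra.Module.Submodule.Basic
import Mathlib.Algebra.Group.Torsion

/-!
Homomorphisms killing parabolic and finite-order elements.
-/

set_option autoImplicit false

namespace Fermat.Agent.MF.ParHom

open scoped MatrixGroups
open ModularCurve.Period

/-- `φ` kills the elements of finite order. -/
def IsEllipticHom (Γ : Subgroup SL(2, ℤ)) {A : Type*} [AddCommGroup A]
    (φ : Additive Γ →+ A) : Prop :=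
  ∀ γ : Γ, IsOfFinOrder γ → φ (Additive.ofMul γ) = 0

variable (R : Type*) [Semiring R] (Γ : Subgroup SL(2, ℤ)) (A : Type*) [AddCommGroup A] [Module R A]

/-- Homomorphisms killing parabolic elements and elements of finite order. -/
def ellParHoms : Submodule R (Additive Γ →+ A) where
  carrier := {φ | IsParabolicHom Γ φ ∧ IsEllipticHom Γ φ}
  zero_mem' := ⟨fun _ _ => rfl, fun _ _ => rfl⟩
  add_mem' := by
    intro φ ψ hφ hψ
    constructor <;> intro γ hγ <;> show φ (Additive.ofMul γ) + ψ (Additive.ofMul γ) = 0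
    · rw [hφ.1 γ hγ, hψ.1 γ hγ, add_zero]
    · rw [hφ.2 γ hγ, hψ.2 γ hγ, add_zero]
  smul_mem' := by
    intro c φ hφ
    constructor <;> intro γ hγ <;> show c • φ (Additive.ofMul γ) = 0
    · rw [hφ.1 γ hγ, smul_zero]
    · rw [hφ.2 γ hγ, smul_zero]

variable {R Γ A}

theorem mem_ellParHoms {φ : Additive Γ →+ A} :
    φ ∈ ellParHoms R Γ A ↔ IsParabolicHom Γ φ ∧ IsEllipticHom Γ φ := Iff.rfl

theorem isEllipticHom_of_torsionFree [IsAddTorsionFree A] (φ : Additive Γ →+ A) :
    IsEllipticHom Γ φ := by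
  intro γ hγ
  obtain ⟨n, hn, hγn⟩ := isOfFinOrder_iff_pow_eq_one.1 hγ
  have : n • φ (Additive.ofMul γ) = 0 := by
    rw [← map_nsmul, ← ofMul_pow, hγn, ofMul_one, map_zero]
  exact (smul_eq_zero.1 this).resolve_left hn.ne'

theorem ellParHoms_eq_parabolicHoms [IsAddTorsionFree A] :
    ellParHoms R Γ A = parabolicHoms R Γ A := by
  ext φ
  exact ⟨fun h => h.1, fun h => ⟨h, isEllipticHom_of_torsionFree φ⟩⟩

end Fermat.Agent.MF.ParHom
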