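import Fermat.Agent.MF.ParHom.Presentation
import Mathlib.GroupTheory.GroupAction.Quotient
import Mathlib.LinearAlgebra.Pi
import Mathlib.LinearAlgebra.StdBasis

/-!
Shapiro's lemma by hand: cocycles `SL(2,ℤ) × X → A` of a finite `SL(2,ℤ)`-set on which `-1`
acts trivially, from functions `w : X → A`.
-/

set_option autoImplicit false

namespace Fermat.Agent.MF.ParHom

open ModularGroup MulAction
open scoped MatrixGroups

variable {X : Type*} [MulAction SL(2, ℤ) X] {A B : Type*} [AddCommGroup A] [AddCommGroup B]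

/-- Cocycle identity. -/
def IsCocycle (F : SL(2, ℤ) → X → A) : Prop := ∀ g h x, F (g * h) x = F g (h • x) + F h x

namespace IsCocycle

variable {F G : SL(2, ℤ) → X → A}

lemma one (hF : IsCocycle F) (x : X) : F 1 x = 0 := by simpa using hF 1 1 x

lemma inv (hF : IsCocycle F) (g : SL(2, ℤ)) (x : X) : F g⁻¹ x = -F g (g⁻¹ • x) := by
  have := hF g g⁻¹ x
  rw [mul_inv_cancel, hF.one] at this
  exact eq_neg_of_add_eq_zero_right this.symm

lemma conj (hF : IsCocycle F) (g h : SL(2, ℤ)) {x : X} (hx : (g * h * g⁻¹) • x = x) :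
    F (g * h * g⁻¹) x = F h (g⁻¹ • x) := by
  have hh : h • g⁻¹ • x = g⁻¹ • x := by
    rw [mul_smul, mul_smul] at hx
    exact eq_inv_smul_iff.2 hx
  rw [hF, hF, hh, hF.inv g x]
  abel

lemma ext (hF : IsCocycle F) (hG : IsCocycle G) (hS : ∀ x, F S x = G S x)
    (hU : ∀ x, F genU x = G genU x) (g : SL(2, ℤ)) (x : X) : F g x = G g x := by
  let K : Subgroup SL(2, ℤ) :=
    { carrier := {g | ∀ x, F g x = G g x}
      one_mem' := fun x => by rw [hF.one, hG.one]
      mul_mem' := fun {a b} ha hb x => by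
        rw [hF, hG, ha (b • x), hb x]
      inv_mem' := fun {a} ha x => by rw [hF.inv, hG.inv, ha (a⁻¹ • x)] }
  have : K = ⊤ := by
    rw [eq_top_iff, ← closure_S_genU, Subgroup.closure_le]
    rintro y (rfl | rfl)
    · exact hS
    · exact hU
  exact (this ▸ Subgroup.mem_top g : g ∈ K) x

lemma add_coboundary (hF : IsCocycle F) (b : X → A) :
    IsCocycle (fun g x => F g x + (b (g • x) - b x)) := by
  intro g h x
  simp only [hF g h x, mul_smul]
  abel

lemma comp (hF : IsCocycle F) (L : A →+ B) : IsCocycle (fun g x => L (F g x)) := by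
  intro g h x
  simp only [hF g h x, map_add]

lemma pow_eq_sum (hF : IsCocycle F) (g : SL(2, ℤ)) (y : X) (n : ℕ) :
    F (g ^ n) y = ∑ i ∈ Finset.range n, F g (g ^ i • y) := by
  induction n with
  | zero => simpa using hF.one y
  | succ n ih => rw [pow_succ', hF, Finset.sum_range_succ, ih, add_comm]

end IsCocycle

variable (hneg : ∀ x : X, (-1 : SL(2, ℤ)) • x = x)
include hneg

lemma S_smul_S (x : X) : S • S • x = x := by rw [← mul_smul, S_sq, hneg]

lemma genU_smul_cube (x : X) : genU • genU • genU • x = x := by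
  rw [← mul_smul, ← mul_smul, genU_cube, hneg]

lemma T_smul_eq (x : X) : T • x = S • genU • x := by
  have h : (-(S * genU)) = (-1) * (S * genU) := by simp
  rw [T_eq, h, mul_smul, hneg, mul_smul]

/-- Action of `S` on `X × A` twisted by `w`. -/
def sPerm (w : X → A) : Equiv.Perm (X × A) where
  toFun q := (S • q.1, q.2 + (w q.1 - w (S • q.1)))
  invFun q := (S • q.1, q.2 + (w q.1 - w (S • q.1)))
  left_inv p := by ext <;> simp [S_smul_S hneg, add_assoc]
  right_inv p := by ext <;> simp [S_smul_S hneg, add_assoc]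

omit hneg in
variable (A) in
/-- Action of `S * T` on `X × A`. -/
def uPerm : Equiv.Perm (X × A) := (MulAction.toPerm genU).prodCongr (Equiv.refl A)

lemma sPerm_apply (w : X → A) (p : X × A) :
    sPerm hneg w p = (S • p.1, p.2 + (w p.1 - w (S • p.1))) := rfl

lemma sPerm_sq (w : X → A) : sPerm hneg w * sPerm hneg w = 1 := by
  ext p
  · simp [sPerm_apply, S_smul_S hneg]
  · simp [sPerm_apply, S_smul_S hneg, add_assoc]

omit [AddCommGroup A] in
lemma uPerm_cube : uPerm (X := X) A * uPerm A * uPerm A = 1 := by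
  ext p
  · simp [uPerm, genU_smul_cube hneg]
  · simp [uPerm]

/-- The action of `SL(2,ℤ)` on `X × A` attached to `w`. -/
noncomputable def wAction (w : X → A) : SL(2, ℤ) →* Equiv.Perm (X × A) :=
  slLift (sPerm_sq hneg w) (uPerm_cube hneg)

/-- The cocycle attached to `w`: `F(S,x) = w x - w (S x)`, `F(ST,x) = 0`. -/
noncomputable def fCoc (w : X → A) (g : SL(2, ℤ)) (x : X) : A := (wAction hneg w g (x, 0)).2

lemma wAction_apply (w : X → A) (g : SL(2, ℤ)) (p : X × A) :
    wAction hneg w g p = (g • p.1, p.2 + fCoc hneg w g p.1) := by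
  let P : SL(2, ℤ) → Prop := fun g => ∀ p : X × A,
    wAction hneg w g p = (g • p.1, p.2 + fCoc hneg w g p.1)
  let K : Subgroup SL(2, ℤ) :=
    { carrier := {g | P g}
      one_mem' := fun p => by simp [fCoc]
      mul_mem' := fun {a b} ha hb p => by
        have e : fCoc hneg w (a * b) p.1 = fCoc hneg w b p.1 + fCoc hneg w a (b • p.1) := by
          show (wAction hneg w (a * b) (p.1, 0)).2 = _
          rw [map_mul, Equiv.Perm.mul_apply, hb, ha]
          simp
        rw [map_mul, Equiv.Perm.mul_apply, hb, ha, e, mul_smul, add_assoc]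
      inv_mem' := fun {a} ha p => by
        have e : fCoc hneg w a⁻¹ p.1 = -fCoc hneg w a (a⁻¹ • p.1) := by
          show (wAction hneg w a⁻¹ (p.1, 0)).2 = _
          rw [map_inv, Equiv.Perm.inv_def,
            show (wAction hneg w a).symm (p.1, 0) = (a⁻¹ • p.1, -fCoc hneg w a (a⁻¹ • p.1)) from
              (Equiv.symm_apply_eq _).2 (by rw [ha]; simp)]
        rw [map_inv, Equiv.Perm.inv_def, Equiv.symm_apply_eq, ha, e]
        simp }
  have : K = ⊤ := by
    rw [eq_top_iff, ← closure_S_genU, Subgroup.closure_le]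
    rintro y (rfl | rfl) <;> intro p
    · simp [fCoc, wAction, sPerm_apply]
    · simp [fCoc, wAction, uPerm, Prod.map]
  exact (this ▸ Subgroup.mem_top g : g ∈ K) p

lemma fCoc_isCocycle (w : X → A) : IsCocycle (fCoc hneg w) := by
  intro g h x
  show (wAction hneg w (g * h) (x, 0)).2 = _
  rw [map_mul, Equiv.Perm.mul_apply, wAction_apply hneg w h, wAction_apply hneg w g]
  simp [add_comm]

@[simp] lemma fCoc_S (w : X → A) (x : X) : fCoc hneg w S x = w x - w (S • x) := by
  simp [fCoc, wAction, sPerm_apply]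

@[simp] lemma fCoc_genU (w : X → A) (x : X) : fCoc hneg w genU x = 0 := by
  simp [fCoc, wAction, uPerm]

lemma fCoc_neg_one (w : X → A) (x : X) : fCoc hneg w (-1) x = 0 := by
  rw [← S_sq, fCoc_isCocycle hneg w]
  simp [S_smul_S hneg]

lemma fCoc_neg (w : X → A) (g : SL(2, ℤ)) (x : X) : fCoc hneg w (-g) x = fCoc hneg w g x := by
  rw [show (-g) = g * -1 by simp, fCoc_isCocycle hneg w, fCoc_neg_one, hneg, add_zero]

lemma fCoc_map (L : A →+ B) (w : X → A) (g : SL(2, ℤ)) (x : X) :
    fCoc hneg (fun x => L (w x)) g x = L (fCoc hneg w g x) :=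
  (fCoc_isCocycle hneg _).ext ((fCoc_isCocycle hneg w).comp L)
    (fun x => by simp) (fun x => by simp) g x

/-- A function that is the sum of an `S`-invariant and a `ST`-invariant one gives a coboundary. -/
lemma fCoc_add_invariant (a b : X → A) (ha : ∀ x, a (S • x) = a x) (hb : ∀ x, b (genU • x) = b x)
    (g : SL(2, ℤ)) (x : X) :
    fCoc hneg (fun x => a x + b x) g x = b x - b (g • x) := by
  refine (fCoc_isCocycle hneg _).ext (G := fun g x => b x - b (g • x)) ?_ (fun x => ?_) (fun x => ?_) g x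
  · intro g h x
    simp only [mul_smul]; abel
  · simp [ha]
  · simp [hb]

omit hneg in
/-- Chosen elements moving the base point. -/
lemma exists_section [IsPretransitive SL(2, ℤ) X] (x₀ : X) :
    ∃ t : X → SL(2, ℤ), t x₀ = 1 ∧ ∀ x, t x • x₀ = x := by
  classical
  choose t ht using fun x => exists_smul_eq SL(2, ℤ) x₀ x
  refine ⟨Function.update t x₀ 1, by simp, fun x => ?_⟩
  by_cases h : x = x₀
  · subst h; simp
  · simpa [h] using ht x

/-- A cocycle whose loops at the base point vanish comes from invariant functions. -/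
lemma exists_invariant_of_fCoc_eq_zero [IsPretransitive SL(2, ℤ) X] (x₀ : X) (w : X → A)
    (h : ∀ γ ∈ stabilizer SL(2, ℤ) x₀, fCoc hneg w γ x₀ = 0) :
    ∃ a b : X → A, (∀ x, a (S • x) = a x) ∧ (∀ x, b (genU • x) = b x) ∧ ∀ x, w x = a x + b x := by
  obtain ⟨t, -, ht⟩ := exists_section x₀
  have hF := fCoc_isCocycle hneg w
  let c : X → A := fun x => fCoc hneg w (t x) x₀
  have key : ∀ (g : SL(2, ℤ)) (x : X), fCoc hneg w g x = c (g • x) - c x := by
    intro g x
    have hfix : (t (g • x))⁻¹ * (g * t x) ∈ stabilizer SL(2, ℤ) x₀ := by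
      rw [mem_stabilizer_iff, mul_smul, mul_smul, ht, inv_smul_eq_iff, ht]
    have e : g * t x = t (g • x) * ((t (g • x))⁻¹ * (g * t x)) := by group
    have h1 : fCoc hneg w (g * t x) x₀ = c (g • x) := by
      rw [e, hF, h _ hfix, mem_stabilizer_iff.1 hfix, add_zero]
    rw [hF, ht] at h1
    exact eq_sub_of_add_eq h1
  refine ⟨fun x => w x + c x, fun x => -c x, fun x => ?_, fun x => ?_, fun x => by simp⟩
  · have := key S x
    rw [fCoc_S] at this
    have : w x = w (S • x) + (c (S • x) - c x) := eq_add_of_sub_eq' this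
    simp only [this]; abel
  · have := key genU x
    rw [fCoc_genU, eq_comm, sub_eq_zero] at this
    simp only [this]

omit hneg in
/-- The Shapiro cocycle of a homomorphism on a point stabiliser. -/
def homCoc {x₀ : X} (φ : Additive (stabilizer SL(2, ℤ) x₀) →+ A) (t : X → SL(2, ℤ))
    (ht : ∀ x, t x • x₀ = x) (g : SL(2, ℤ)) (x : X) : A :=
  φ (Additive.ofMul ⟨(t (g • x))⁻¹ * (g * t x), by
    rw [mem_stabilizer_iff, mul_smul, mul_smul, ht, inv_smul_eq_iff, ht]⟩)

omit hneg in
lemma homCoc_isCocycle {x₀ : X} (φ : Additive (stabilizer SL(2, ℤ) x₀) →+ A) (t : X → SL(2, ℤ))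
    (ht : ∀ x, t x • x₀ = x) : IsCocycle (homCoc φ t ht) := by
  intro g h x
  rw [homCoc, homCoc, homCoc, ← map_add, ← ofMul_mul]
  congr 2
  ext : 1
  simp only [Subgroup.coe_mul, mul_smul]
  group

omit hneg in
/-- On a cyclic group whose loops are killed, a cocycle is a coboundary. -/
lemma exists_coboundary {F : SL(2, ℤ) → X → A} (hF : IsCocycle F) (u : SL(2, ℤ))
    (hu : ∀ h ∈ Subgroup.zpowers u, ∀ y : X, h • y = y → F h y = 0) :
    ∃ b : X → A, ∀ x, F u x = b (u • x) - b x := by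
  let r : X → X := fun x => (Quotient.mk (orbitRel (Subgroup.zpowers u) X) x).out
  have hr : ∀ x, ∃ h ∈ Subgroup.zpowers u, h • r x = x := by
    intro x
    have : x ∈ orbit (Subgroup.zpowers u) (r x) :=
      orbitRel_apply.1 (Setoid.symm' _ (Quotient.mk_out x))
    obtain ⟨⟨h, hh⟩, e⟩ := this
    exact ⟨h, hh, e⟩
  choose h hmem hsmul using hr
  refine ⟨fun x => F (h x) (r x), fun x => ?_⟩
  have hr' : r (u • x) = r x := by
    refine congrArg Quotient.out (Quotient.sound ?_)
    exact orbitRel_apply.2 ⟨⟨u, Subgroup.mem_zpowers u⟩, rfl⟩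
  have e1 : h (u • x) = (u * h x) * ((u * h x)⁻¹ * h (u • x)) := by group
  have hfix : ((u * h x)⁻¹ * h (u • x)) • r x = r x := by
    rw [mul_smul, inv_smul_eq_iff, mul_smul, hsmul, ← hr', hsmul]
  have hz := hu _ (mul_mem (inv_mem (mul_mem (Subgroup.mem_zpowers u) (hmem x))) (hmem (u • x)))
    _ hfix
  have hb : F (h (u • x)) (r (u • x)) = F u x + F (h x) (r x) := by
    rw [hr', e1, hF, hz, add_zero, hfix, hF, hsmul]
  show F u x = F (h (u • x)) (r (u • x)) - F (h x) (r x)
  rw [hb]; abel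

omit hneg in
lemma trace_sq_le_of_mem_zpowers {h : SL(2, ℤ)}
    (hh : h ∈ Subgroup.zpowers S ∨ h ∈ Subgroup.zpowers genU) :
    (h : Matrix (Fin 2) (Fin 2) ℤ).trace ^ 2 ≤ 4 := by
  rcases hh with hh | hh
  · obtain ⟨n, rfl⟩ := hh
    have h4 : (S : SL(2, ℤ)) ^ 4 = 1 := by decide
    have e : S ^ n = S ^ (n % 4).toNat := by
      rw [← zpow_natCast, Int.toNat_of_nonneg (Int.emod_nonneg n (by norm_num))]
      exact zpow_eq_zpow_emod n (by simpa using h4)
    rw [show (fun i : ℤ => S ^ i) n = S ^ (n % 4).toNat from e]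
    have := Int.emod_lt_of_pos n (show (0 : ℤ) < 4 by norm_num)
    have := Int.emod_nonneg n (show (4 : ℤ) ≠ 0 by norm_num)
    obtain ⟨m, hm, e'⟩ : ∃ m : ℕ, m < 4 ∧ (n % 4).toNat = m := ⟨_, by omega, rfl⟩
    rw [e']
    interval_cases m <;> decide
  · obtain ⟨n, rfl⟩ := hh
    have h6 : genU ^ 6 = 1 := by decide
    have e : genU ^ n = genU ^ (n % 6).toNat := by
      rw [← zpow_natCast, Int.toNat_of_nonneg (Int.emod_nonneg n (by norm_num))]
      exact zpow_eq_zpow_emod n (by simpa using h6)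
    rw [show (fun i : ℤ => genU ^ i) n = genU ^ (n % 6).toNat from e]
    have := Int.emod_lt_of_pos n (show (0 : ℤ) < 6 by norm_num)
    have := Int.emod_nonneg n (show (6 : ℤ) ≠ 0 by norm_num)
    obtain ⟨m, hm, e'⟩ : ∃ m : ℕ, m < 6 ∧ (n % 6).toNat = m := ⟨_, by omega, rfl⟩
    rw [e']
    interval_cases m <;> decide

/-- Every homomorphism killing the loops with `trace² ≤ 4` comes from some `w : X → A`. -/
lemma exists_fCoc_eq [IsPretransitive SL(2, ℤ) X] (x₀ : X)
    (φ : Additive (stabilizer SL(2, ℤ) x₀) →+ A)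
    (hφ : ∀ γ : stabilizer SL(2, ℤ) x₀,
      ((γ : SL(2, ℤ)) : Matrix (Fin 2) (Fin 2) ℤ).trace ^ 2 ≤ 4 → φ (Additive.ofMul γ) = 0) :
    ∃ w : X → A, ∀ γ : stabilizer SL(2, ℤ) x₀,
      fCoc hneg w (γ : SL(2, ℤ)) x₀ = φ (Additive.ofMul γ) := by
  obtain ⟨t, ht1, ht⟩ := exists_section x₀
  have hF := homCoc_isCocycle φ t ht
  have hloop : ∀ h : SL(2, ℤ), (h ∈ Subgroup.zpowers S ∨ h ∈ Subgroup.zpowers genU) →
      ∀ y : X, h • y = y → homCoc φ t ht h y = 0 := by
    intro h hh y hy
    refine hφ _ (le_of_eq_of_le ?_ (trace_sq_le_of_mem_zpowers hh))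
    congr 1
    show (((t (h • y))⁻¹ * (h * t y) : SL(2, ℤ)) : Matrix (Fin 2) (Fin 2) ℤ).trace = _
    rw [hy, Matrix.SpecialLinearGroup.coe_mul, Matrix.trace_mul_comm,
      ← Matrix.SpecialLinearGroup.coe_mul, mul_assoc, mul_inv_cancel, mul_one]
  obtain ⟨b, hb⟩ := exists_coboundary hF genU fun h hh => hloop h (Or.inr hh)
  obtain ⟨a, ha⟩ := exists_coboundary hF S fun h hh => hloop h (Or.inl hh)
  refine ⟨fun x => b x - a x, fun γ => ?_⟩
  have key := fun g x => hF.ext ((fCoc_isCocycle hneg fun x => b x - a x).add_coboundary b)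
    (fun x => by rw [fCoc_S, ha]; abel) (fun x => by rw [fCoc_genU, hb]; abel) g x
  have hγ : (γ : SL(2, ℤ)) • x₀ = x₀ := γ.2
  have := key γ x₀
  rw [hγ, sub_self, add_zero] at this
  rw [← this]
  show φ _ = _
  congr 2
  ext : 1
  show (t ((γ : SL(2, ℤ)) • x₀))⁻¹ * ((γ : SL(2, ℤ)) * t x₀) = γ
  rw [hγ, ht1, inv_one, one_mul, mul_one]

end Fermat.Agent.MF.ParHom
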