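import Fermat.Agent.MF.ParHom.Main

/-!
`Hom_{par,ell}(Γ, A) ≅ A^r` for every finite-index `Γ ≤ SL(2,ℤ)` containing `-1`.
-/

set_option autoImplicit false

namespace Fermat.Agent.MF.ParHom

open ModularGroup MulAction
open scoped MatrixGroups

variable {Γ : Subgroup SL(2, ℤ)} [Γ.FiniteIndex] (hΓ : -1 ∈ Γ)

noncomputable local instance fintypeCoset : Fintype (SL(2, ℤ) ⧸ Γ) := Fintype.ofFinite _

include hΓ

omit [Γ.FiniteIndex] in
theorem neg_one_smul_coset (q : SL(2, ℤ) ⧸ Γ) : (-1 : SL(2, ℤ)) • q = q := by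
  obtain ⟨g, rfl⟩ := QuotientGroup.mk_surjective q
  rw [MulAction.Quotient.smul_mk, smul_eq_mul, QuotientGroup.eq]
  have e : ((-1 : SL(2, ℤ)) * g)⁻¹ * g = -1 := by
    rw [inv_mul_eq_iff_eq_mul]; simp
  rw [e]
  exact hΓ

omit hΓ [Γ.FiniteIndex] in
/-- `Γ` as the stabiliser of the base coset. -/
def genToStab : Γ →* stabilizer SL(2, ℤ) ((1 : SL(2, ℤ)) : SL(2, ℤ) ⧸ Γ) where
  toFun γ := ⟨γ, (SetLike.ext_iff.1 (stabilizer_quotient Γ) _).2 γ.2⟩
  map_one' := rfl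
  map_mul' _ _ := rfl

omit hΓ [Γ.FiniteIndex] in
/-- The stabiliser of the base coset as `Γ`. -/
def genOfStab : stabilizer SL(2, ℤ) ((1 : SL(2, ℤ)) : SL(2, ℤ) ⧸ Γ) →* Γ where
  toFun γ := ⟨γ, (SetLike.ext_iff.1 (stabilizer_quotient Γ) _).1 γ.2⟩
  map_one' := rfl
  map_mul' _ _ := rfl

/-- The universal homomorphism into the homology of the compactified quotient. -/
noncomputable def genPiSurf : Additive Γ →+ SurfH (neg_one_smul_coset hΓ) :=
  (piUniv (neg_one_smul_coset hΓ) ((1 : SL(2, ℤ)) : SL(2, ℤ) ⧸ Γ)).comp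
    (MonoidHom.toAdditive genToStab)

theorem genPiSurf_surjective : Function.Surjective (genPiSurf hΓ) := by
  intro v
  obtain ⟨γ, rfl⟩ := piUniv_surjective (neg_one_smul_coset hΓ)
    ((1 : SL(2, ℤ)) : SL(2, ℤ) ⧸ Γ) v
  exact ⟨Additive.ofMul (genOfStab (Additive.toMul γ)), rfl⟩

theorem genPiSurf_factor {A : Type*} [AddCommGroup A] (φ : Additive Γ →+ A)
    (hφ : ∀ γ : Γ,
      ((γ : SL(2, ℤ)) : Matrix (Fin 2) (Fin 2) ℤ).trace ^ 2 ≤ 4 → φ (Additive.ofMul γ) = 0) :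
    ∃ ψ : SurfH (neg_one_smul_coset hΓ) →ₗ[ℤ] A, ∀ γ, φ γ = ψ (genPiSurf hΓ γ) := by
  obtain ⟨ψ, hψ⟩ := exists_factor (neg_one_smul_coset hΓ) ((1 : SL(2, ℤ)) : SL(2, ℤ) ⧸ Γ)
    (φ.comp (MonoidHom.toAdditive genOfStab)) fun γ h => hφ _ h
  exact ⟨ψ, fun γ => hψ (MonoidHom.toAdditive genToStab γ)⟩

/-- The rank of `Hom_{par,ell}(Γ, ℤ)`. -/
noncomputable def genRank : ℕ := Module.finrank ℤ (SurfH (neg_one_smul_coset hΓ))

/-- Hurwitz-type formula for the rank, by orbit counts on the cosets. -/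
theorem genRank_add :
    genRank hΓ + (Nat.card (Orb (SL(2, ℤ) ⧸ Γ) S) + Nat.card (Orb (SL(2, ℤ) ⧸ Γ) genU) +
      Nat.card (Orb (SL(2, ℤ) ⧸ Γ) T)) = Γ.index + 2 := by
  rw [Subgroup.index]
  simp only [Nat.card_eq_fintype_card]
  exact finrank_surfH (neg_one_smul_coset hΓ)

/-- A basis of the homology. -/
noncomputable def genBasis :
    Module.Basis (Fin (genRank hΓ)) ℤ (SurfH (neg_one_smul_coset hΓ)) :=
  haveI := free_surfH (neg_one_smul_coset hΓ)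
  Module.finBasis ℤ _

/-- Elements of `Γ` dual to a basis of `Hom_{par,ell}`. -/
noncomputable def genGen (i : Fin (genRank hΓ)) : Γ :=
  Additive.toMul (Function.surjInv (genPiSurf_surjective hΓ) (genBasis hΓ i))

/-- The universal parabolic, elliptic homomorphism `Γ → ℤ^r`. -/
noncomputable def genPi : Additive Γ →+ (Fin (genRank hΓ) → ℤ) :=
  (genBasis hΓ).equivFun.toLinearMap.toAddMonoidHom.comp (genPiSurf hΓ)

theorem genPi_mem : genPi hΓ ∈ ellParHoms ℤ Γ (Fin (genRank hΓ) → ℤ) := by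
  refine ⟨fun γ hγ => ?_, isEllipticHom_of_torsionFree _⟩
  show (genBasis hΓ).equivFun (genPiSurf hΓ (Additive.ofMul γ)) = 0
  rw [show genPiSurf hΓ (Additive.ofMul γ) = 0 from piUniv_parabolic _ _ (genToStab γ) hγ, map_zero]

theorem genPi_genGen (i : Fin (genRank hΓ)) :
    genPi hΓ (Additive.ofMul (genGen hΓ i)) = Pi.single i 1 := by
  show (genBasis hΓ).equivFun (genPiSurf hΓ (Additive.ofMul (genGen hΓ i))) = _
  rw [genGen, ofMul_toMul, Function.surjInv_eq (genPiSurf_surjective hΓ)]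
  ext j
  simp [Pi.single_apply, eq_comm]

theorem genPi_surjective : Function.Surjective (genPi hΓ) :=
  (genBasis hΓ).equivFun.surjective.comp (genPiSurf_surjective hΓ)

/-- Universality. -/
theorem eq_sum_genPi {A : Type*} [AddCommGroup A] (φ : Additive Γ →+ A)
    (hφ : ∀ γ : Γ,
      ((γ : SL(2, ℤ)) : Matrix (Fin 2) (Fin 2) ℤ).trace ^ 2 ≤ 4 → φ (Additive.ofMul γ) = 0)
    (δ : Additive Γ) :
    φ δ = ∑ i, genPi hΓ δ i • φ (Additive.ofMul (genGen hΓ i)) := by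
  obtain ⟨ψ, hψ⟩ := genPiSurf_factor hΓ φ hφ
  simp only [hψ, genGen, ofMul_toMul, Function.surjInv_eq (genPiSurf_surjective hΓ), ← map_zsmul,
    ← map_sum]
  congr 1
  exact ((genBasis hΓ).sum_equivFun _).symm

omit hΓ [Γ.FiniteIndex] in
theorem trace_sq_le_eq_zero_of_mem {R A : Type*} [Semiring R] [AddCommGroup A] [Module R A]
    {φ : Additive Γ →+ A} (hφ : φ ∈ ellParHoms R Γ A) (γ : Γ)
    (h : ((γ : SL(2, ℤ)) : Matrix (Fin 2) (Fin 2) ℤ).trace ^ 2 ≤ 4) :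
    φ (Additive.ofMul γ) = 0 := by
  rcases h.lt_or_eq with h | h
  · refine hφ.2 γ ?_
    obtain ⟨n, hn, e⟩ := isOfFinOrder_iff_pow_eq_one.1 (isOfFinOrder_of_trace_sq_lt h)
    exact isOfFinOrder_iff_pow_eq_one.2 ⟨n, hn, Subtype.ext (by simpa using e)⟩
  · exact hφ.1 γ h

theorem mem_ellParHoms_iff_of_neg_one_mem {R A : Type*} [Semiring R] [AddCommGroup A] [Module R A]
    (φ : Additive Γ →+ A) :
    φ ∈ ellParHoms R Γ A ↔ ∀ γ : Γ,
      ((γ : SL(2, ℤ)) : Matrix (Fin 2) (Fin 2) ℤ).trace ^ 2 ≤ 4 → φ (Additive.ofMul γ) = 0 := by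
  refine ⟨trace_sq_le_eq_zero_of_mem, fun h => ⟨fun γ hγ => h γ hγ.le, fun γ hγ => ?_⟩⟩
  rw [eq_sum_genPi hΓ φ h]
  simp [(genPi_mem hΓ).2 γ hγ]

variable (R : Type*) [Ring R] (A : Type*) [AddCommGroup A] [Module R A]

/-- Evaluation at `genGen`: `Hom_{par,ell}(Γ, A) ≅ A^r`, natural in `A`. -/
noncomputable def genEvalEquiv : ellParHoms R Γ A ≃ₗ[R] (Fin (genRank hΓ) → A) where
  toFun φ i := (φ : Additive Γ →+ A) (Additive.ofMul (genGen hΓ i))
  map_add' _ _ := rfl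
  map_smul' _ _ := rfl
  invFun v :=
    ⟨AddMonoidHom.mk' (fun δ => ∑ i, genPi hΓ δ i • v i) fun a b => by
        simp [add_smul, Finset.sum_add_distrib],
      fun γ hγ => by simp [(genPi_mem hΓ).1 γ hγ],
      fun γ hγ => by simp [(genPi_mem hΓ).2 γ hγ]⟩
  left_inv φ := Subtype.ext (AddMonoidHom.ext fun δ =>
    (eq_sum_genPi hΓ (φ : Additive Γ →+ A) (trace_sq_le_eq_zero_of_mem φ.2) δ).symm)
  right_inv v := by
    ext i
    simp [genPi_genGen, Pi.single_apply, ite_smul]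

theorem genEvalEquiv_apply (φ : ellParHoms R Γ A) (i : Fin (genRank hΓ)) :
    genEvalEquiv hΓ R A φ i = (φ : Additive Γ →+ A) (Additive.ofMul (genGen hΓ i)) :=
  rfl

theorem finite_ellParHoms_gen [Finite A] : Finite (ellParHoms R Γ A) :=
  Finite.of_equiv _ (genEvalEquiv hΓ R A).symm.toEquiv

theorem card_ellParHoms_gen :
    Nat.card (ellParHoms R Γ A) = Nat.card A ^ genRank hΓ := by
  rw [Nat.card_congr (genEvalEquiv hΓ R A).toEquiv, Nat.card_fun, Nat.card_fin]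

theorem finrank_ellParHoms_gen [StrongRankCondition R] :
    Module.finrank R (ellParHoms R Γ R) = genRank hΓ := by
  rw [(genEvalEquiv hΓ R R).finrank_eq, Module.finrank_pi, Fintype.card_fin]

end Fermat.Agent.MF.ParHom
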