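import Fermat.Agent.MF.ParHom.Cocycle
import Mathlib.LinearAlgebra.FreeModule.PID
import Mathlib.LinearAlgebra.Quotient.Basic
import Mathlib.Algebra.Module.Projective

/-!
The universal homomorphism on a point stabiliser killing the elements with `trace² ≤ 4`:
first homology of the compactified quotient surface.
-/

set_option autoImplicit false

namespace Fermat.Agent.MF.ParHom

open ModularGroup MulAction
open scoped MatrixGroups

variable (X : Type*) [MulAction SL(2, ℤ) X] [Fintype X]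

/-- Orbits of a single element. -/
abbrev Orb (g : SL(2, ℤ)) : Type _ := orbitRel.Quotient (Subgroup.zpowers g) X

variable {X}

/-- The orbit of a point under a single element. -/
abbrev orbMk (g : SL(2, ℤ)) (x : X) : Orb X g :=
  Quotient.mk (orbitRel (Subgroup.zpowers g) X) x

omit [Fintype X] in
lemma orbMk_smul (g : SL(2, ℤ)) (x : X) : orbMk g (g • x) = orbMk g x :=
  Quotient.sound (orbitRel_apply.2 ⟨⟨g, Subgroup.mem_zpowers g⟩, rfl⟩)

omit [Fintype X] in
lemma eq_of_orbMk_eq {C : Type*} {f : X → C} {g : SL(2, ℤ)} (hf : ∀ x, f (g • x) = f x)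
    {x y : X} (h : orbMk g x = orbMk g y) : f x = f y := by
  obtain ⟨⟨u, hu⟩, rfl⟩ := orbitRel_apply.1 (Quotient.exact h)
  show f (u • y) = f y
  let K : Subgroup SL(2, ℤ) :=
    { carrier := {u | ∀ z, f (u • z) = f z}
      one_mem' := fun z => by rw [one_smul]
      mul_mem' := fun {a b} ha hb z => by rw [mul_smul, ha, hb]
      inv_mem' := fun {a} ha z => by
        have := ha (a⁻¹ • z)
        rw [smul_inv_smul] at this
        exact this.symm }
  have : Subgroup.zpowers g ≤ K := Subgroup.zpowers_le.2 hf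
  exact this hu y

omit [Fintype X] in
lemma const_of_invariant [IsPretransitive SL(2, ℤ) X] {C : Type*} {f : X → C}
    (hS : ∀ x, f (S • x) = f x) (hU : ∀ x, f (genU • x) = f x) (x y : X) : f x = f y := by
  let K : Subgroup SL(2, ℤ) :=
    { carrier := {u | ∀ z, f (u • z) = f z}
      one_mem' := fun z => by rw [one_smul]
      mul_mem' := fun {a b} ha hb z => by rw [mul_smul, ha, hb]
      inv_mem' := fun {a} ha z => by
        have := ha (a⁻¹ • z)
        rw [smul_inv_smul] at this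
        exact this.symm }
  have : K = ⊤ := by
    rw [eq_top_iff, ← closure_S_genU, Subgroup.closure_le]
    rintro u (rfl | rfl)
    · exact hS
    · exact hU
  obtain ⟨g, rfl⟩ := exists_smul_eq SL(2, ℤ) y x
  exact (this ▸ Subgroup.mem_top g : g ∈ K) y

noncomputable instance Orb.instFintype (g : SL(2, ℤ)) : Fintype (Orb X g) := by
  classical
  exact Fintype.ofFinite _

section eps

open scoped Classical in
variable (X) in
/-- Sum of the coefficients over each orbit. -/
noncomputable def epsOne (g : SL(2, ℤ)) : (X → ℤ) →ₗ[ℤ] (Orb X g → ℤ) :=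
  Fintype.linearCombination ℤ fun x => Pi.single (orbMk g x) 1

variable (X) in
/-- The boundary map of the bipartite graph. -/
noncomputable def eps : (X → ℤ) →ₗ[ℤ] (Orb X S → ℤ) × (Orb X genU → ℤ) :=
  (epsOne X S).prod (epsOne X genU)

open scoped Classical in
lemma eps_single (x : X) :
    eps X (Pi.single x 1) = (Pi.single (orbMk S x) 1, Pi.single (orbMk genU x) 1) := by
  simp [eps, epsOne]

lemma exists_cycProj : ∃ P : (X → ℤ) →ₗ[ℤ] LinearMap.ker (eps X),
    ∀ z : LinearMap.ker (eps X), P (z : X → ℤ) = z := by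
  obtain ⟨σ, hσ⟩ := Module.projective_lifting_property (eps X).rangeRestrict LinearMap.id
    (LinearMap.surjective_rangeRestrict _)
  have hmem : ∀ v, (LinearMap.id - σ ∘ₗ (eps X).rangeRestrict : (X → ℤ) →ₗ[ℤ] (X → ℤ)) v ∈
      LinearMap.ker (eps X) := by
    intro v
    have := congrArg Subtype.val (LinearMap.congr_fun hσ ((eps X).rangeRestrict v))
    simp only [LinearMap.comp_apply, LinearMap.id_apply, LinearMap.codRestrict_apply] at this
    rw [LinearMap.mem_ker, LinearMap.sub_apply, map_sub, LinearMap.id_apply, LinearMap.comp_apply,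
      sub_eq_zero]
    exact this.symm
  refine ⟨LinearMap.codRestrict _ _ hmem, fun z => ?_⟩
  have h0 : (eps X).rangeRestrict (z : X → ℤ) = 0 := Subtype.ext z.2
  ext : 1
  simp [h0]

end eps

variable (hneg : ∀ x : X, (-1 : SL(2, ℤ)) • x = x)
include hneg

/-- The universal cocycle, with values in `ℤ[X]`. -/
noncomputable def fUniv (g : SL(2, ℤ)) (x : X) : X → ℤ :=
  open scoped Classical in fCoc hneg (fun y : X => (Pi.single y 1 : X → ℤ)) g x

omit [Fintype X] in
lemma fUniv_isCocycle : IsCocycle (fUniv hneg) := fCoc_isCocycle hneg _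

omit [Fintype X] in
lemma map_fUniv {A : Type*} [AddCommGroup A] (L : (X → ℤ) →ₗ[ℤ] A) (g : SL(2, ℤ)) (x : X) :
    L (fUniv hneg g x) = open scoped Classical in fCoc hneg (fun y => L (Pi.single y 1)) g x :=
  (fCoc_map hneg L.toAddMonoidHom _ g x).symm

lemma linearCombination_fUniv {A : Type*} [AddCommGroup A] (w : X → A) (g : SL(2, ℤ)) (x : X) :
    Fintype.linearCombination ℤ w (fUniv hneg g x) = fCoc hneg w g x := by
  classical
  rw [map_fUniv]
  congr 1
  ext y
  simp

lemma fUniv_mem_ker {g : SL(2, ℤ)} {x : X} (h : g • x = x) :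
    fUniv hneg g x ∈ LinearMap.ker (eps X) := by
  classical
  rw [LinearMap.mem_ker, map_fUniv]
  have e : (fun y : X => eps X (Pi.single y 1)) = fun y =>
      ((Pi.single (orbMk S y) 1, 0) + (0, Pi.single (orbMk genU y) 1) :
        (Orb X S → ℤ) × (Orb X genU → ℤ)) := by
    funext y
    rw [eps_single]; simp
  rw [e, fCoc_add_invariant hneg _ _ (fun y => by rw [orbMk_smul]) (fun y => by rw [orbMk_smul]),
    h, sub_self]

/-- The span of the loops around the cusps. -/
def cuspLoops : Submodule ℤ (X → ℤ) :=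
  Submodule.span ℤ {v | ∃ (k : ℤ) (y : X), T ^ k • y = y ∧ v = fUniv hneg (T ^ k) y}

lemma cuspLoops_le : cuspLoops hneg ≤ LinearMap.ker (eps X) := by
  rw [cuspLoops, Submodule.span_le]
  rintro v ⟨k, y, hy, rfl⟩
  exact fUniv_mem_ker hneg hy

/-- Cusp loops inside the cycles. -/
noncomputable def cuspSub : Submodule ℤ (LinearMap.ker (eps X)) :=
  (cuspLoops hneg).comap (LinearMap.ker (eps X)).subtype

/-- First homology of the compactified surface. -/
abbrev SurfH : Type _ := LinearMap.ker (eps X) ⧸ cuspSub hneg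

variable (x₀ : X)

/-- The universal homomorphism. -/
noncomputable def piUniv : Additive (stabilizer SL(2, ℤ) x₀) →+ SurfH hneg :=
  AddMonoidHom.mk'
    (fun γ => Submodule.Quotient.mk ⟨fUniv hneg ((Additive.toMul γ : _) : SL(2, ℤ)) x₀,
      fUniv_mem_ker hneg (Additive.toMul γ).2⟩)
    fun γ δ => by
      rw [← Submodule.Quotient.mk_add]
      congr 1
      ext : 1
      show fUniv hneg _ x₀ = fUniv hneg _ x₀ + fUniv hneg _ x₀
      rw [toMul_add, Subgroup.coe_mul, fUniv_isCocycle hneg, (Additive.toMul δ).2]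

lemma piUniv_parabolic (γ : stabilizer SL(2, ℤ) x₀)
    (h : ((γ : SL(2, ℤ)) : Matrix (Fin 2) (Fin 2) ℤ).trace ^ 2 = 4) :
    piUniv hneg x₀ (Additive.ofMul γ) = 0 := by
  refine (Submodule.Quotient.mk_eq_zero _).2 ?_
  show fUniv hneg (γ : SL(2, ℤ)) x₀ ∈ cuspLoops hneg
  obtain ⟨g, n, hg⟩ := exists_conj_T_zpow h
  have hfix : (g * T ^ n * g⁻¹) • x₀ = x₀ := by
    have := γ.2
    rw [mem_stabilizer_iff] at this
    rcases hg with hg | hg <;> rw [hg] at this
    · exact this
    · rwa [show -(g * T ^ n * g⁻¹) = -1 * (g * T ^ n * g⁻¹) by simp, mul_smul, hneg] at this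
  have hval : fUniv hneg (γ : SL(2, ℤ)) x₀ = fUniv hneg (T ^ n) (g⁻¹ • x₀) := by
    rcases hg with hg | hg
    · rw [hg, (fUniv_isCocycle hneg).conj g _ hfix]
    · rw [hg]
      exact (fCoc_neg hneg _ _ _).trans ((fUniv_isCocycle hneg).conj g _ hfix)
  rw [hval]
  refine Submodule.subset_span ⟨n, _, ?_, rfl⟩
  rw [mul_smul, mul_smul] at hfix
  exact eq_inv_smul_iff.2 hfix

variable [IsPretransitive SL(2, ℤ) X]

/-- Universality. -/
theorem exists_factor {A : Type*} [AddCommGroup A]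
    (φ : Additive (stabilizer SL(2, ℤ) x₀) →+ A)
    (hφ : ∀ γ : stabilizer SL(2, ℤ) x₀,
      ((γ : SL(2, ℤ)) : Matrix (Fin 2) (Fin 2) ℤ).trace ^ 2 ≤ 4 → φ (Additive.ofMul γ) = 0) :
    ∃ ψ : SurfH hneg →ₗ[ℤ] A, ∀ γ, φ γ = ψ (piUniv hneg x₀ γ) := by
  obtain ⟨w, hw⟩ := exists_fCoc_eq hneg x₀ φ hφ
  have hB : cuspLoops hneg ≤ LinearMap.ker (Fintype.linearCombination ℤ w) := by
    rw [cuspLoops, Submodule.span_le]
    rintro v ⟨k, y, hy, rfl⟩
    rw [SetLike.mem_coe, LinearMap.mem_ker, linearCombination_fUniv]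
    obtain ⟨g, hg⟩ := exists_smul_eq SL(2, ℤ) y x₀
    have hgi : g⁻¹ • x₀ = y := inv_smul_eq_iff.2 hg.symm
    have hfix : (g * T ^ k * g⁻¹) • x₀ = x₀ := by rw [mul_smul, mul_smul, hgi, hy, hg]
    have e := hw ⟨g * T ^ k * g⁻¹, hfix⟩
    rw [(fCoc_isCocycle hneg w).conj g _ hfix, hgi] at e
    rw [e]
    refine hφ _ (le_of_eq ?_)
    show ((g * T ^ k * g⁻¹ : SL(2, ℤ)) : Matrix (Fin 2) (Fin 2) ℤ).trace ^ 2 = 4
    rw [Matrix.SpecialLinearGroup.coe_mul, Matrix.trace_mul_comm,
      ← Matrix.SpecialLinearGroup.coe_mul, ← mul_assoc, inv_mul_cancel, one_mul, coe_T_zpow,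
      Matrix.trace_fin_two_of]
    norm_num
  refine ⟨(cuspSub hneg).liftQ ((Fintype.linearCombination ℤ w).comp
    (LinearMap.ker (eps X)).subtype) (fun z hz => hB hz), fun γ => ?_⟩
  obtain ⟨γ, rfl⟩ := Additive.ofMul.surjective γ
  exact (hw γ).symm.trans (linearCombination_fUniv hneg w _ _).symm

theorem piUniv_surjective : Function.Surjective (piUniv hneg x₀) := by
  classical
  let R : Submodule ℤ (SurfH hneg) := AddSubgroup.toIntSubmodule (piUniv hneg x₀).range
  obtain ⟨P, hP⟩ := exists_cycProj (X := X)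
  let L : (X → ℤ) →ₗ[ℤ] SurfH hneg ⧸ R := R.mkQ ∘ₗ (cuspSub hneg).mkQ ∘ₗ P
  have h0 : ∀ γ ∈ stabilizer SL(2, ℤ) x₀,
      fCoc hneg (fun y => L (Pi.single y 1)) γ x₀ = 0 := by
    intro γ hγ
    rw [← map_fUniv]
    show R.mkQ ((cuspSub hneg).mkQ (P (fUniv hneg γ x₀))) = 0
    rw [hP ⟨_, fUniv_mem_ker hneg (mem_stabilizer_iff.1 hγ)⟩]
    exact (Submodule.Quotient.mk_eq_zero R).2 ⟨Additive.ofMul ⟨γ, hγ⟩, rfl⟩
  obtain ⟨a, b, ha, hb, hab⟩ := exists_invariant_of_fCoc_eq_zero hneg x₀ _ h0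
  have hL : L = Fintype.linearCombination ℤ (fun o : Orb X S => a o.out) ∘ₗ epsOne X S +
      Fintype.linearCombination ℤ (fun o : Orb X genU => b o.out) ∘ₗ epsOne X genU := by
    refine (Pi.basisFun ℤ X).ext fun x => ?_
    simp [epsOne, hab, eq_of_orbMk_eq ha (Quotient.out_eq (orbMk S x)),
      eq_of_orbMk_eq hb (Quotient.out_eq (orbMk genU x))]
  intro v
  obtain ⟨z, rfl⟩ := Submodule.mkQ_surjective _ v
  have hz := z.2
  change ((epsOne X S) (z : X → ℤ), (epsOne X genU) (z : X → ℤ)) = 0 at hz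
  rw [Prod.mk_eq_zero] at hz
  have : R.mkQ ((cuspSub hneg).mkQ (P (z : X → ℤ))) = 0 := by
    show L (z : X → ℤ) = 0
    rw [hL, LinearMap.add_apply, LinearMap.comp_apply, LinearMap.comp_apply, hz.1, hz.2, map_zero,
      map_zero, add_zero]
  rw [hP z] at this
  exact (Submodule.Quotient.mk_eq_zero R).1 this

end Fermat.Agent.MF.ParHom
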